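import Fermat.Agent.JPb.Cl
import Fermat.Agent.JMod.H1Group
import Fermat.Agent.JH.Rel
import Fermat.Prelude.Def_AlgebraicGeometry_RepresentsRelSubPic

/-!
# S25, block C: rigidified line bundles and rigidified classes in `H1`
-/

set_option autoImplicit false

noncomputable section

universe u

open CategoryTheory CategoryTheory.Limits AlgebraicGeometry NeronModelInfra
open AlgebraicGeometry.RelPicard

namespace Fermat.Agent.JCl

open Fermat.Agent.JMod Fermat.Agent.JPb

section

variable {X Y : Scheme.{u}}

theorem cl_pb (f : X ⟶ Y) (M : Y.Modules) (hM : Scheme.Modules.IsInvertible M)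
    (hM' : Scheme.Modules.IsInvertible ((Scheme.Modules.pullback f).obj M)) :
    cl ((Scheme.Modules.pullback f).obj M) hM' = H1.map f (cl M hM) := by
  obtain ⟨c, hc, h1⟩ := isFrm_of_cl_eq_mk' hM
  rw [h1, cl_pullback_mk f hc, H1.map_mk]

theorem cl_un (h : Scheme.Modules.IsInvertible (SheafOfModules.unit X.ringCatSheaf : X.Modules)) :
    cl (SheafOfModules.unit X.ringCatSheaf) h = 1 := cl_unit_mk X h

theorem cl_eq_one_iff (M : X.Modules) (hM : Scheme.Modules.IsInvertible M) :
    cl M hM = 1 ↔ Nonempty (M ≅ (SheafOfModules.unit X.ringCatSheaf : X.Modules)) := by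
  rw [← cl_un (X := X) (Scheme.Modules.isInvertible_unit X)]
  exact cl_eq_iff _ _ _ _

theorem cl_congr {M N : X.Modules} (e : M = N) (hM : Scheme.Modules.IsInvertible M)
    (hN : Scheme.Modules.IsInvertible N) : cl M hM = cl N hN := by subst e; rfl

end

variable {R : Type u} [CommRing R] {C : Scheme.{u}} {c : C ⟶ Spec (CommRingCat.of R)}
  {ε : SchemeHomOver (𝟙 (Spec (CommRingCat.of R))) c}

variable {T T' : Scheme.{u}} {t : T ⟶ Spec (CommRingCat.of R)} {t' : T' ⟶ Spec (CommRingCat.of R)}

/-- the rigidified class of a rigidified line bundle -/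
def clsH (M : RigidifiedLineBundle c ε t) :
    {h : H1 (pullback c t) // H1.map (rigSection c t ε) h = 1} :=
  ⟨cl M.L M.isInvertible, by
    rw [← cl_pb (rigSection c t ε) M.L M.isInvertible (M.isInvertible.pullback _),
      cl_eq_one_iff]
    exact M.rigidified⟩

theorem clsH_val (M : RigidifiedLineBundle c ε t) : (clsH M).1 = cl M.L M.isInvertible := rfl

theorem clsH_eq_iff (M M' : RigidifiedLineBundle c ε t) :
    clsH M = clsH M' ↔ Nonempty (M.L ≅ M'.L) := by
  rw [Subtype.ext_iff, clsH_val, clsH_val, cl_eq_iff]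

theorem exists_clsH (h : {h : H1 (pullback c t) // H1.map (rigSection c t ε) h = 1}) :
    ∃ M : RigidifiedLineBundle c ε t, clsH M = h := by
  obtain ⟨h, hh⟩ := h
  obtain ⟨L, hL, rfl⟩ := exists_cl h
  rw [← cl_pb (rigSection c t ε) L hL (hL.pullback _), cl_eq_one_iff] at hh
  exact ⟨⟨L, hL, hh⟩, rfl⟩

theorem clsH_pullbackAlong (M : RigidifiedLineBundle c ε t) (ψ : SchemeHomOver t' t) :
    (clsH (M.pullbackAlong ψ)).1 = H1.map (baseChangeSnd c ψ) (clsH M).1 :=
  cl_pb (baseChangeSnd c ψ) M.L M.isInvertible (M.pullbackAlong ψ).isInvertible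

theorem clsH_unit : (clsH (RigidifiedLineBundle.unit (c := c) (ε := ε) t)).1 = 1 :=
  cl_un (RigidifiedLineBundle.unit (c := c) (ε := ε) t).isInvertible

/-- the bijection between classes of rigidified line bundles and rigidified classes in `H1` -/
def classesEquiv (t : T ⟶ Spec (CommRingCat.of R)) : RigidifiedLineBundle.Classes c ε t ≃
    {h : H1 (pullback c t) // H1.map (rigSection c t ε) h = 1} :=
  Equiv.ofBijective (Quotient.lift clsH fun M M' h => (clsH_eq_iff M M').2 h) (by
    constructor
    · intro a b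
      induction a using Quotient.ind with
      | _ M =>
        induction b using Quotient.ind with
        | _ M' => exact fun h => Quotient.sound ((clsH_eq_iff M M').1 h)
    · intro h
      obtain ⟨M, hM⟩ := exists_clsH h
      exact ⟨Quotient.mk _ M, hM⟩)

theorem classesEquiv_mk (M : RigidifiedLineBundle c ε t) :
    classesEquiv (ε := ε) t (Quotient.mk _ M) = clsH M := rfl

theorem classesEquiv_map (ψ : SchemeHomOver t' t) (x : RigidifiedLineBundle.Classes c ε t) :
    (classesEquiv (ε := ε) t' (RigidifiedLineBundle.classesMap ψ x)).1 =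
      H1.map (baseChangeSnd c ψ) (classesEquiv (ε := ε) t x).1 := by
  induction x using Quotient.ind with
  | _ M => exact clsH_pullbackAlong M ψ

/-- a rigidified class is determined by its value in `H1`; classifying morphisms -/
theorem iso_pullbackAlong_iff (PP : RigidifiedLineBundle c ε t) (M : RigidifiedLineBundle c ε t')
    (g : SchemeHomOver t' t) : Nonempty ((PP.pullbackAlong g).L ≅ M.L) ↔
      H1.map (baseChangeSnd c g) (clsH PP).1 = (clsH M).1 := by
  rw [← clsH_eq_iff, Subtype.ext_iff, clsH_pullbackAlong]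

/-- from a universal rigidified class to a universal rigidified line bundle -/
theorem exists_poincare (univ : {h : H1 (pullback c t) // H1.map (rigSection c t ε) h = 1})
    (hu : ∀ {T' : Scheme.{u}} (t' : T' ⟶ Spec (CommRingCat.of R))
      (h : {h : H1 (pullback c t') // H1.map (rigSection c t' ε) h = 1}),
      ∃! g : SchemeHomOver t' t, H1.map (baseChangeSnd c g) univ.1 = h.1) :
    ∃ PP : RigidifiedLineBundle c ε t, clsH PP = univ ∧
      ∀ {T' : Scheme.{u}} (t' : T' ⟶ Spec (CommRingCat.of R)) (M : RigidifiedLineBundle c ε t'),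
        ∃! g : SchemeHomOver t' t, Nonempty ((PP.pullbackAlong g).L ≅ M.L) := by
  obtain ⟨PP, rfl⟩ := exists_clsH univ
  refine ⟨PP, rfl, fun t' M => ?_⟩
  simp only [iso_pullbackAlong_iff]
  exact hu t' (clsH M)

end Fermat.Agent.JCl

end
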