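import Mathlib

set_option autoImplicit false

/-! Block C (S25): `Γ(T, W) → Γ(C ×ₖ T, p⁻¹ W)` is bijective, for a proper integral scheme `C` over an
algebraically closed field `k` and every `k`-scheme `T`. -/

noncomputable section

universe u

open CategoryTheory CategoryTheory.Limits AlgebraicGeometry TopologicalSpace

namespace Fermat.Agent.JC

variable {k : Type u} [Field k]

theorem bijective_appTop [IsAlgClosed k] {C : Scheme.{u}} (c : C ⟶ Spec (CommRingCat.of k))
    [IsProper c] [IsIntegral C] : Function.Bijective c.appTop.hom := by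
  have hint := isIntegral_appTop_of_universallyClosed c
  let := ((Scheme.ΓSpecIso (.of k)).commRingCatIsoToRingEquiv.toMulEquiv.isField
    (Field.toIsField k)).toField
  let := (isField_of_universallyClosed k c).toField
  let e : k ≃+* Γ(Spec (CommRingCat.of k), ⊤) :=
    (Scheme.ΓSpecIso (.of k)).symm.commRingCatIsoToRingEquiv
  refine ⟨c.appTop.hom.injective, ?_⟩
  have : IsAlgClosed Γ(Spec (CommRingCat.of k), ⊤) := IsAlgClosed.of_ringEquiv k _ e
  algebraize [c.appTop.hom]
  have : Algebra.IsIntegral Γ(Spec (CommRingCat.of k), ⊤) Γ(C, ⊤) := ⟨hint⟩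
  exact IsAlgClosed.algebraMap_bijective_of_isIntegral.2

theorem isIso_snd_app_of_isAffineOpen [IsAlgClosed k] {C T : Scheme.{u}} (c : C ⟶ Spec (CommRingCat.of k))
    [IsProper c] [IsIntegral C] (t : T ⟶ Spec (CommRingCat.of k)) (W : T.Opens)
    (hW : IsAffineOpen W) : IsIso ((pullback.snd c t).app W) := by
  have hflat : Flat t := inferInstance
  have : CompactSpace C := (quasiCompact_iff_compactSpace c).mp inferInstance
  have : QuasiSeparatedSpace C := quasiSeparatedSpace_of_quasiSeparated c
  have H := isIso_pushoutSection_of_isQuasiSeparated_of_flat_right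
    (H := IsPullback.of_hasPullback c t) (US := ⊤) (UT := W) (UX := ⊤) (UY := (pullback.snd c t) ⁻¹ᵁ W)
    (hUST := le_top) (hUSX := le_top) (hUY := by simp) (isAffineOpen_top _) hW
    isCompact_univ isQuasiSeparated_univ
  replace H := (isIso_pushoutSection_iff ..).mp H
  have h1 : IsIso (c.appLE ⊤ ⊤ le_top) := by
    have : IsIso c.appTop := (ConcreteCategory.isIso_iff_bijective _).mpr (bijective_appTop c)
    have h := Scheme.Hom.appLE_eq_app c (U := ⊤)
    exact h ▸ this
  have h2 := H.isIso_inr_of_isIso
  rwa [Scheme.Hom.appLE_eq_app] at h2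

theorem bijective_snd_app [IsAlgClosed k] {C T : Scheme.{u}} (c : C ⟶ Spec (CommRingCat.of k))
    [IsProper c] [IsIntegral C] (t : T ⟶ Spec (CommRingCat.of k)) (W : T.Opens) :
    Function.Bijective ((pullback.snd c t).app W).hom := by
  let F : TopCat.Sheaf CommRingCat T := T.sheaf
  let G : TopCat.Sheaf CommRingCat T :=
    (TopCat.Sheaf.pushforward CommRingCat (pullback.snd c t).base).obj (pullback c t).sheaf
  let φ : F ⟶ G := ⟨(pullback.snd c t).c⟩
  have hφ : IsIso φ := by
    refine TopCat.Sheaf.isIso_iff_isIso_basis (B := fun U : T.affineOpens => (U : T.Opens)) ?_ ?_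
    · rw [Subtype.range_coe]
      exact T.isBasis_affineOpens
    · intro U
      exact isIso_snd_app_of_isAffineOpen c t U U.2
  have h0 : IsIso ((TopCat.Sheaf.forget CommRingCat _).map φ) := inferInstance
  have h1 : IsIso (((TopCat.Sheaf.forget CommRingCat _).map φ).app (Opposite.op W)) :=
    inferInstance
  exact (ConcreteCategory.isIso_iff_bijective
    (((TopCat.Sheaf.forget CommRingCat _).map φ).app (Opposite.op W))).mp h1

end Fermat.Agent.JC
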