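import Fermat.Agent.JC.SU

set_option autoImplicit false

/-! Block C (S25): cocycles of unit functions, isomorphisms of cocycles, gluing of rigidified cocycles
along an open cover of the base. -/

noncomputable section

universe u

open CategoryTheory CategoryTheory.Limits AlgebraicGeometry TopologicalSpace Opposite

namespace Fermat.Agent.JC

variable {X Y Z T : Scheme.{u}}

variable (X) in
/-- unit functions `g i j` relative to a family of opens -/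
structure Dat where
  ι : Type u
  U : ι → X.Opens
  g : ι → ι → SU X

/-- `G` is a cocycle over `V` -/
structure Dat.IsC (G : Dat X) (V : X.Opens) : Prop where
  cov : ∀ x ∈ V, ∃ i, x ∈ G.U i
  on : ∀ i j, OnU (G.U i ⊓ G.U j ⊓ V) (G.g i j)
  coc : ∀ i j l, ∀ x ∈ V, x ∈ G.U i → x ∈ G.U j → x ∈ G.U l → G.g i j x * G.g j l x = G.g i l x

/-- isomorphism `G → G'` over `V` -/
structure Dat.IsIso (G G' : Dat X) (V : X.Opens) (φ : G.ι → G'.ι → SU X) : Prop where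
  on : ∀ i j, OnU (G.U i ⊓ G'.U j ⊓ V) (φ i j)
  left : ∀ i i' j, ∀ x ∈ V, x ∈ G.U i → x ∈ G.U i' → x ∈ G'.U j →
    G.g i i' x * φ i' j x = φ i j x
  right : ∀ i j j', ∀ x ∈ V, x ∈ G.U i → x ∈ G'.U j → x ∈ G'.U j' →
    φ i j x * G'.g j j' x = φ i j' x

def Dat.Eqv (G G' : Dat X) (V : X.Opens) : Prop := ∃ φ, Dat.IsIso G G' V φ

theorem Dat.IsC.mono {G : Dat X} {V V' : X.Opens} (h : G.IsC V) (hV : V' ≤ V) : G.IsC V' where
  cov x hx := h.cov x (hV hx)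
  on i j := (h.on i j).mono (inf_le_inf le_rfl hV)
  coc i j l x hx := h.coc i j l x (hV hx)

theorem Dat.IsIso.mono {G G' : Dat X} {V V' : X.Opens} {φ : G.ι → G'.ι → SU X}
    (h : G.IsIso G' V φ) (hV : V' ≤ V) : G.IsIso G' V' φ where
  on i j := (h.on i j).mono (inf_le_inf le_rfl hV)
  left i i' j x hx := h.left i i' j x (hV hx)
  right i j j' x hx := h.right i j j' x (hV hx)

theorem Dat.Eqv.mono {G G' : Dat X} {V V' : X.Opens} (h : G.Eqv G' V) (hV : V' ≤ V) :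
    G.Eqv G' V' := h.imp fun _ h => h.mono hV

theorem Dat.IsC.refl {G : Dat X} {V : X.Opens} (h : G.IsC V) : G.IsIso G V G.g where
  on := h.on
  left i i' j x hx h1 h2 h3 := h.coc i i' j x hx h1 h2 h3
  right i j j' x hx h1 h2 h3 := h.coc i j j' x hx h1 h2 h3

theorem Dat.IsC.g_self {G : Dat X} {V : X.Opens} (h : G.IsC V) (i : G.ι) (x : X) (hx : x ∈ V)
    (hi : x ∈ G.U i) : G.g i i x = 1 := by
  have := h.coc i i i x hx hi hi hi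
  exact mul_eq_left.mp this

theorem Dat.IsC.g_inv {G : Dat X} {V : X.Opens} (h : G.IsC V) (i j : G.ι) (x : X) (hx : x ∈ V)
    (hi : x ∈ G.U i) (hj : x ∈ G.U j) : (G.g i j x)⁻¹ = G.g j i x := by
  have := h.coc i j i x hx hi hj hi
  rw [h.g_self i x hx hi] at this
  exact inv_eq_of_mul_eq_one_right this

theorem Dat.IsIso.symm {G G' : Dat X} {V : X.Opens} {φ : G.ι → G'.ι → SU X}
    (hG : G.IsC V) (hG' : G'.IsC V) (h : G.IsIso G' V φ) :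
    G'.IsIso G V (fun j i => (φ i j)⁻¹) where
  on j i := ((h.on i j).inv).mono (inf_le_inf (le_of_eq (inf_comm _ _)) le_rfl)
  left j j' i x hx hj hj' hi := by
    have h1 := h.right i j' j x hx hi hj' hj
    show G'.g j j' x * (φ i j' x)⁻¹ = (φ i j x)⁻¹
    rw [← h1, mul_inv, hG'.g_inv j' j x hx hj' hj, mul_comm]
  right j i i' x hx hj hi hi' := by
    have h1 := h.left i' i j x hx hi' hi hj
    show (φ i j x)⁻¹ * G.g i i' x = (φ i' j x)⁻¹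
    rw [← h1, mul_inv, hG.g_inv i' i x hx hi' hi, mul_comm]

/-- the composite of two isomorphisms -/
theorem Dat.IsIso.trans {G G' G'' : Dat X} {V : X.Opens} {φ : G.ι → G'.ι → SU X}
    {ψ : G'.ι → G''.ι → SU X} (hG' : G'.IsC V) (h : G.IsIso G' V φ) (h' : G'.IsIso G'' V ψ) :
    ∃ χ, G.IsIso G'' V χ ∧ ∀ i j l, ∀ x ∈ V, x ∈ G.U i → x ∈ G'.U j → x ∈ G''.U l →
      χ i l x = φ i j x * ψ j l x := by
  classical
  choose c hc using hG'.cov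
  have key : ∀ i j l, ∀ x (hx : x ∈ V), x ∈ G.U i → x ∈ G'.U j → x ∈ G''.U l →
      φ i (c x hx) x * ψ (c x hx) l x = φ i j x * ψ j l x := by
    intro i j l x hx hi hj hl
    rw [← h.right i j (c x hx) x hx hi hj (hc x hx), mul_assoc,
      h'.left j (c x hx) l x hx hj (hc x hx) hl]
  refine ⟨fun i l x => if hx : x ∈ V then φ i (c x hx) x * ψ (c x hx) l x else 1,
    ⟨fun i l => ?_, ?_, ?_⟩, fun i j l x hx hi hj hl => ?_⟩
  · refine OnU.of_local fun x hx => ⟨G.U i ⊓ G''.U l ⊓ V ⊓ G'.U (c x hx.2), ⟨hx, hc x hx.2⟩, ?_⟩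
    refine (((h.on i (c x hx.2)).mono ?_).mul ((h'.on (c x hx.2) l).mono ?_)).congr ?_
    · intro y hy; exact ⟨⟨hy.1.1.1, hy.2⟩, hy.1.2⟩
    · intro y hy; exact ⟨⟨hy.2, hy.1.1.2⟩, hy.1.2⟩
    · intro y hy
      have hyV : y ∈ V := hy.1.2
      rw [dif_pos hyV]
      exact (key i (c x hx.2) l y hy.1.2 hy.1.1.1 hy.2 hy.1.1.2).symm
  · intro i i' l x hx hi hi' hl
    rw [dif_pos hx, dif_pos hx, ← mul_assoc, h.left i i' (c x hx) x hx hi hi' (hc x hx)]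
  · intro i l l' x hx hi hl hl'
    rw [dif_pos hx, dif_pos hx, mul_assoc, h'.right (c x hx) l l' x hx (hc x hx) hl hl']
  · beta_reduce
    rw [dif_pos hx]
    exact key i j l x hx hi hj hl

theorem Dat.Eqv.symm {G G' : Dat X} {V : X.Opens} (hG : G.IsC V) (hG' : G'.IsC V)
    (h : G.Eqv G' V) : G'.Eqv G V := by
  obtain ⟨φ, h⟩ := h
  exact ⟨_, h.symm hG hG'⟩

theorem Dat.Eqv.trans {G G' G'' : Dat X} {V : X.Opens} (hG' : G'.IsC V)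
    (h : G.Eqv G' V) (h' : G'.Eqv G'' V) : G.Eqv G'' V := by
  obtain ⟨φ, h⟩ := h
  obtain ⟨ψ, h'⟩ := h'
  obtain ⟨χ, hχ, -⟩ := Dat.IsIso.trans hG' h h'
  exact ⟨χ, hχ⟩

/-- pull-back of data -/
def Dat.pb (f : Y ⟶ X) (G : Dat X) : Dat Y where
  ι := G.ι
  U i := f ⁻¹ᵁ G.U i
  g i j := upb f (G.g i j)

theorem Dat.IsC.pb (f : Y ⟶ X) {G : Dat X} {V : X.Opens} (h : G.IsC V) :
    (G.pb f).IsC (f ⁻¹ᵁ V) where
  cov y hy := h.cov (f y) hy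
  on i j := (h.on i j).upb f
  coc i j l y hy hi hj hl := by
    have := h.coc i j l (f y) hy hi hj hl
    show upb f (G.g i j) y * upb f (G.g j l) y = upb f (G.g i l) y
    rw [upb_apply, upb_apply, upb_apply, ← map_mul, this]

theorem Dat.IsIso.pb (f : Y ⟶ X) {G G' : Dat X} {V : X.Opens} {φ : G.ι → G'.ι → SU X}
    (h : G.IsIso G' V φ) : (G.pb f).IsIso (G'.pb f) (f ⁻¹ᵁ V) (fun i j => upb f (φ i j)) where
  on i j := (h.on i j).upb f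
  left i i' j y hy hi hi' hj := by
    have := h.left i i' j (f y) hy hi hi' hj
    show upb f (G.g i i') y * upb f (φ i' j) y = upb f (φ i j) y
    rw [upb_apply, upb_apply, upb_apply, ← map_mul, this]
  right i j j' y hy hi hj hj' := by
    have := h.right i j j' (f y) hy hi hj hj'
    show upb f (φ i j) y * upb f (G'.g j j') y = upb f (φ i j') y
    rw [upb_apply, upb_apply, upb_apply, ← map_mul, this]

theorem Dat.Eqv.pb (f : Y ⟶ X) {G G' : Dat X} {V : X.Opens} (h : G.Eqv G' V) :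
    (G.pb f).Eqv (G'.pb f) (f ⁻¹ᵁ V) := by
  obtain ⟨φ, h⟩ := h
  exact ⟨_, h.pb f⟩

/-- trivialisation over `W` -/
structure Dat.IsTriv (G : Dat X) (W : X.Opens) (r : G.ι → SU X) : Prop where
  on : ∀ i, OnU (G.U i ⊓ W) (r i)
  eq : ∀ i j, ∀ x ∈ W, x ∈ G.U i → x ∈ G.U j → G.g i j x * r j x = r i x

def Dat.Triv (G : Dat X) (W : X.Opens) : Prop := ∃ r, G.IsTriv W r

section Glue

variable (p : X ⟶ T) (σ : T ⟶ X) (hσ : σ ≫ p = 𝟙 T)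
  (hp : ∀ W : T.Opens, Function.Surjective (p.app W).hom)

include hσ in
theorem sigma_mem {W : T.Opens} {τ : T} (hτ : τ ∈ W) : σ τ ∈ p ⁻¹ᵁ W := by
  have h : p (σ τ) = τ := by
    have := congr($hσ τ)
    simpa using this
  show p (σ τ) ∈ W
  rwa [h]

include hσ in
theorem p_sigma (τ : T) : p (σ τ) = τ := by
  have := congr($hσ τ)
  simpa using this

include hσ in
theorem upb_sigma_p (s : SU T) : upb σ (upb p s) = s := by
  rw [← upb_comp, upb_congr hσ, upb_id]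

include hσ hp in
/-- a unit section over `p⁻¹ W` which is `1` along `σ` is `1` -/
theorem eq_one_of_sigma (W : T.Opens) (s : SU X) (hs : OnU (p ⁻¹ᵁ W) s)
    (h : ∀ τ ∈ W, upb σ s τ = 1) : ∀ x, p x ∈ W → s x = 1 := by
  obtain ⟨a, ha⟩ := hs.exists_unit
  obtain ⟨v, hv⟩ := hp W (a : Γ(X, p ⁻¹ᵁ W))
  have hid : ∀ (f : T ⟶ T) (_ : f = 𝟙 T) (τ : T) (hτ : τ ∈ W) (hτ' : f τ ∈ W),
      f.stalkMap τ (T.presheaf.germ W (f τ) hτ' v) = T.presheaf.germ W τ hτ v := by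
    intro f hf τ hτ hτ'
    subst hf
    exact congr($(Scheme.Hom.stalkMap_id (X := T) τ) (T.presheaf.germ W τ hτ v))
  have hv1 : v = 1 := by
    refine TopCat.Presheaf.section_ext T.sheaf _ _ _ fun τ hτ => ?_
    have hτ' : σ τ ∈ p ⁻¹ᵁ W := sigma_mem p σ hσ hτ
    have h1 : σ.stalkMap τ ((s (σ τ) : (X.presheaf.stalk (σ τ))ˣ) : X.presheaf.stalk (σ τ)) = 1 :=
      congrArg Units.val (h τ hτ)
    rw [← ha _ hτ', ug_val, ← hv] at h1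
    have h2 : X.presheaf.germ (p ⁻¹ᵁ W) (σ τ) hτ' (p.app W v) =
        p.stalkMap (σ τ) (T.presheaf.germ W (p (σ τ)) hτ' v) :=
      (Scheme.Hom.germ_stalkMap_apply p W (σ τ) hτ' v).symm
    have h3 : σ.stalkMap τ (p.stalkMap (σ τ) (T.presheaf.germ W (p (σ τ)) hτ' v)) =
        (σ ≫ p).stalkMap τ (T.presheaf.germ W ((σ ≫ p) τ) hτ' v) :=
      congr($((Scheme.Hom.stalkMap_comp σ p τ).symm)
        (T.presheaf.germ W (p (σ τ)) hτ' v))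
    have h4 := hid (σ ≫ p) hσ τ hτ hτ'
    have h5 : T.presheaf.germ W τ hτ v = 1 := by
      rw [← h4, ← h3, ← h2]
      exact h1
    have h6 : T.presheaf.germ W τ hτ v = T.presheaf.germ W τ hτ 1 := by rw [h5, map_one]
    exact h6
  intro x hx
  have h7 : a = 1 := by
    ext
    rw [← hv, hv1]
    exact map_one _
  rw [← ha x hx, h7]
  exact ug_one _ _

/-- an isomorphism is normalised with respect to trivialisations along `σ` -/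
def NormIso (G G' : Dat X) (r : G.ι → SU T) (r' : G'.ι → SU T) (W : T.Opens)
    (φ : G.ι → G'.ι → SU X) : Prop :=
  ∀ i j, ∀ τ ∈ W, σ τ ∈ G.U i → σ τ ∈ G'.U j → upb σ (φ i j) τ * r' j τ = r i τ

theorem NormIso.mono {σ : T ⟶ X} {G G' : Dat X} {r : G.ι → SU T} {r' : G'.ι → SU T}
    {W W' : T.Opens} {φ : G.ι → G'.ι → SU X} (h : NormIso σ G G' r r' W φ) (hW : W' ≤ W) :
    NormIso σ G G' r r' W' φ := fun i j τ hτ => h i j τ (hW hτ)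

include hσ in
theorem exists_normIso {G G' : Dat X} {W : T.Opens} (hG : G.IsC (p ⁻¹ᵁ W))
    (hG' : G'.IsC (p ⁻¹ᵁ W)) {r : G.ι → SU T} {r' : G'.ι → SU T}
    (hr : (G.pb σ).IsTriv W r) (hr' : (G'.pb σ).IsTriv W r')
    {φ : G.ι → G'.ι → SU X} (hφ : G.IsIso G' (p ⁻¹ᵁ W) φ) :
    ∃ φ', G.IsIso G' (p ⁻¹ᵁ W) φ' ∧ NormIso σ G G' r r' W φ' := by
  classical
  have hmem : ∀ τ ∈ W, σ τ ∈ p ⁻¹ᵁ W := fun τ hτ => sigma_mem p σ hσ hτ
  choose c hc using hG.cov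
  choose c' hc' using hG'.cov
  have key : ∀ i j i' j' (τ : T), τ ∈ W → σ τ ∈ G.U i → σ τ ∈ G'.U j → σ τ ∈ G.U i' →
      σ τ ∈ G'.U j' → upb σ (φ i j) τ * r' j τ * (r i τ)⁻¹ =
        upb σ (φ i' j') τ * r' j' τ * (r i' τ)⁻¹ := by
    intro i j i' j' τ hτ hi hj hi' hj'
    have e1 := hr.eq i i' τ hτ hi hi'
    have e2 := hr'.eq j j' τ hτ hj hj'
    have e3 := (hφ.pb σ).left i i' j τ (hmem τ hτ) hi hi' hj
    have e4 := (hφ.pb σ).right i' j j' τ (hmem τ hτ) hi' hj hj'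
    rw [← e1, ← e2, ← e3, ← e4, mul_inv]
    generalize upb σ (φ i' j) τ = A
    generalize (G.pb σ).g i i' τ = B
    generalize (G'.pb σ).g j j' τ = D
    generalize r' j' τ = E
    generalize r i' τ = H
    calc B * A * (D * E) * (B⁻¹ * H⁻¹) = (B * B⁻¹) * (A * D * E * H⁻¹) := by ac_rfl
      _ = A * D * E * H⁻¹ := by rw [mul_inv_cancel, one_mul]
  let v : SU T := fun τ => if hτ : τ ∈ W then
    upb σ (φ (c _ (hmem τ hτ)) (c' _ (hmem τ hτ))) τ * r' (c' _ (hmem τ hτ)) τ *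
      (r (c _ (hmem τ hτ)) τ)⁻¹ else 1
  have hv : ∀ i j (τ : T), τ ∈ W → σ τ ∈ G.U i → σ τ ∈ G'.U j →
      v τ = upb σ (φ i j) τ * r' j τ * (r i τ)⁻¹ := by
    intro i j τ hτ hi hj
    show dite _ _ _ = _
    rw [dif_pos hτ]
    exact key _ _ _ _ τ hτ (hc _ _) (hc' _ _) hi hj
  have hvU : OnU W v := by
    refine OnU.of_local fun τ hτ => ?_
    let i := c _ (hmem τ hτ)
    let j := c' _ (hmem τ hτ)
    refine ⟨W ⊓ σ ⁻¹ᵁ (G.U i ⊓ G'.U j), ⟨hτ, hc _ _, hc' _ _⟩, ?_⟩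
    refine ((((hφ.pb σ).on i j).mono ?_).mul ((hr'.on j).mono ?_)).mul ((hr.on i).inv.mono ?_)
      |>.congr ?_
    · intro y hy; exact ⟨⟨hy.2.1, hy.2.2⟩, hmem y hy.1⟩
    · intro y hy; exact ⟨hy.2.2, hy.1⟩
    · intro y hy; exact ⟨hy.2.1, hy.1⟩
    · intro y hy; exact (hv i j y hy.1 hy.2.1 hy.2.2).symm
  have hpv : OnU (p ⁻¹ᵁ W) (upb p v)⁻¹ := (hvU.upb p).inv
  refine ⟨fun i j => φ i j * (upb p v)⁻¹, ⟨fun i j => ?_, ?_, ?_⟩, ?_⟩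
  · exact (hφ.on i j).mul (hpv.mono inf_le_right)
  · intro i i' j x hx hi hi' hj
    show G.g i i' x * (φ i' j x * (upb p v)⁻¹ x) = φ i j x * (upb p v)⁻¹ x
    rw [← mul_assoc, hφ.left i i' j x hx hi hi' hj]
  · intro i j j' x hx hi hj hj'
    show φ i j x * (upb p v)⁻¹ x * G'.g j j' x = φ i j' x * (upb p v)⁻¹ x
    rw [mul_right_comm, hφ.right i j j' x hx hi hj hj']
  · intro i j τ hτ hi hj
    have e1 : upb σ (φ i j * (upb p v)⁻¹) = upb σ (φ i j) * v⁻¹ := by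
      rw [map_mul, map_inv, upb_sigma_p p σ hσ]
    rw [e1]
    show upb σ (φ i j) τ * (v τ)⁻¹ * r' j τ = r i τ
    rw [hv i j τ hτ hi hj]
    generalize upb σ (φ i j) τ = A
    generalize r' j τ = E
    generalize r i τ = H
    rw [mul_inv, mul_inv, inv_inv]
    calc A * (A⁻¹ * E⁻¹ * H) * E = (A * A⁻¹) * (E * E⁻¹) * H := by ac_rfl
      _ = H := by rw [mul_inv_cancel, mul_inv_cancel, one_mul, one_mul]

include hσ hp in
/-- normalised isomorphisms are unique -/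
theorem normIso_unique {G G' : Dat X} {W : T.Opens} (hG : G.IsC (p ⁻¹ᵁ W))
    (hG' : G'.IsC (p ⁻¹ᵁ W)) {r : G.ι → SU T} {r' : G'.ι → SU T}
    {φ ψ : G.ι → G'.ι → SU X} (hφ : G.IsIso G' (p ⁻¹ᵁ W) φ) (hψ : G.IsIso G' (p ⁻¹ᵁ W) ψ)
    (nφ : NormIso σ G G' r r' W φ) (nψ : NormIso σ G G' r r' W ψ) :
    ∀ i j x, p x ∈ W → x ∈ G.U i → x ∈ G'.U j → φ i j x = ψ i j x := by
  classical
  choose c hc using hG.cov
  choose c' hc' using hG'.cov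
  have key : ∀ i j i' j' (x : X), x ∈ p ⁻¹ᵁ W → x ∈ G.U i → x ∈ G'.U j → x ∈ G.U i' →
      x ∈ G'.U j' → φ i j x * (ψ i j x)⁻¹ = φ i' j' x * (ψ i' j' x)⁻¹ := by
    intro i j i' j' x hx hi hj hi' hj'
    rw [← hφ.left i i' j x hx hi hi' hj, ← hφ.right i' j j' x hx hi' hj hj',
      ← hψ.left i i' j x hx hi hi' hj, ← hψ.right i' j j' x hx hi' hj hj']
    generalize G.g i i' x = B
    generalize G'.g j j' x = D
    generalize φ i' j x = P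
    generalize ψ i' j x = Q
    rw [mul_inv, mul_inv]
    calc B * P * (B⁻¹ * Q⁻¹) = (B * B⁻¹) * (P * Q⁻¹) := by ac_rfl
      _ = (D * D⁻¹) * (P * Q⁻¹) := by rw [mul_inv_cancel, mul_inv_cancel]
      _ = P * D * (Q⁻¹ * D⁻¹) := by ac_rfl
  let s : SU X := fun x => if hx : x ∈ p ⁻¹ᵁ W then
    φ (c _ hx) (c' _ hx) x * (ψ (c _ hx) (c' _ hx) x)⁻¹ else 1
  have hs : ∀ i j x, x ∈ p ⁻¹ᵁ W → x ∈ G.U i → x ∈ G'.U j →
      s x = φ i j x * (ψ i j x)⁻¹ := by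
    intro i j x hx hi hj
    show dite _ _ _ = _
    rw [dif_pos hx]
    exact key _ _ _ _ x hx (hc _ _) (hc' _ _) hi hj
  have hsU : OnU (p ⁻¹ᵁ W) s := by
    refine OnU.of_local fun x hx => ?_
    refine ⟨G.U (c _ hx) ⊓ G'.U (c' _ hx) ⊓ p ⁻¹ᵁ W, ⟨⟨hc _ _, hc' _ _⟩, hx⟩, ?_⟩
    refine ((hφ.on _ _).mul (hψ.on _ _).inv).congr ?_
    intro y hy
    exact (hs _ _ y hy.2 hy.1.1 hy.1.2).symm
  have h1 := eq_one_of_sigma p σ hσ hp W s hsU (fun τ hτ => by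
    have hm : σ τ ∈ p ⁻¹ᵁ W := sigma_mem p σ hσ hτ
    have e1 := nφ _ _ τ hτ (hc _ hm) (hc' _ hm)
    have e2 := nψ _ _ τ hτ (hc _ hm) (hc' _ hm)
    have e3 := e1.trans e2.symm
    have e4 := mul_right_cancel e3
    rw [upb_apply, hs _ _ _ hm (hc _ hm) (hc' _ hm), map_mul, map_inv, ← upb_apply, ← upb_apply,
      e4, mul_inv_cancel])
  intro i j x hx hi hj
  have h2 := h1 x hx
  rw [hs i j x hx hi hj] at h2
  exact mul_inv_eq_one.mp h2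

include hσ hp in
/-- uniqueness of rigidified cocycles: locally isomorphic implies isomorphic -/
theorem eqv_of_local {G G' : Dat X} {I : Type*} (W : I → T.Opens)
    (hG : G.IsC (p ⁻¹ᵁ (⨆ a, W a))) (hG' : G'.IsC (p ⁻¹ᵁ (⨆ a, W a)))
    (hr : (G.pb σ).Triv (⨆ a, W a)) (hr' : (G'.pb σ).Triv (⨆ a, W a))
    (h : ∀ a, G.Eqv G' (p ⁻¹ᵁ (W a))) : G.Eqv G' (p ⁻¹ᵁ (⨆ a, W a)) := by
  classical
  obtain ⟨r, hr⟩ := hr
  obtain ⟨r', hr'⟩ := hr'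
  have hle : ∀ a, p ⁻¹ᵁ (W a) ≤ p ⁻¹ᵁ (⨆ a, W a) := fun a x hx => (le_iSup W a) hx
  have hex : ∀ a, ∃ φ, G.IsIso G' (p ⁻¹ᵁ (W a)) φ ∧ NormIso σ G G' r r' (W a) φ := by
    intro a
    obtain ⟨φ, hφ⟩ := h a
    exact exists_normIso p σ hσ (hG.mono (hle a)) (hG'.mono (hle a))
      ⟨fun i => (hr.on i).mono (inf_le_inf le_rfl (le_iSup W a)),
        fun i j x hx => hr.eq i j x (le_iSup W a hx)⟩
      ⟨fun i => (hr'.on i).mono (inf_le_inf le_rfl (le_iSup W a)),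
        fun i j x hx => hr'.eq i j x (le_iSup W a hx)⟩ hφ
  choose φ hφ nφ using hex
  have huniq : ∀ a b i j x, p x ∈ W a → p x ∈ W b → x ∈ G.U i → x ∈ G'.U j →
      φ a i j x = φ b i j x := by
    intro a b i j x ha hb hi hj
    have hle1 : p ⁻¹ᵁ (W a ⊓ W b) ≤ p ⁻¹ᵁ (W a) := fun y hy => hy.1
    have hle2 : p ⁻¹ᵁ (W a ⊓ W b) ≤ p ⁻¹ᵁ (W b) := fun y hy => hy.2
    exact normIso_unique p σ hσ hp (W := W a ⊓ W b) (hG.mono (hle1.trans (hle a)))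
      (hG'.mono (hle1.trans (hle a))) ((hφ a).mono hle1) ((hφ b).mono hle2)
      ((nφ a).mono inf_le_left) ((nφ b).mono inf_le_right) i j x ⟨ha, hb⟩ hi hj
  have hmem : ∀ x : X, x ∈ p ⁻¹ᵁ (⨆ a, W a) → ∃ a, p x ∈ W a := by
    intro x hx
    exact Opens.mem_iSup.mp hx
  choose d hd using hmem
  let χ : G.ι → G'.ι → SU X := fun i j x =>
    if hx : x ∈ p ⁻¹ᵁ (⨆ a, W a) then φ (d x hx) i j x else 1
  have hχ : ∀ a i j x, p x ∈ W a → x ∈ G.U i → x ∈ G'.U j → χ i j x = φ a i j x := by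
    intro a i j x ha hi hj
    have hx : x ∈ p ⁻¹ᵁ (⨆ a, W a) := hle a ha
    show dite _ _ _ = _
    rw [dif_pos hx]
    exact huniq _ _ i j x (hd x hx) ha hi hj
  refine ⟨χ, ⟨fun i j => ?_, ?_, ?_⟩⟩
  · refine OnU.of_local fun x hx => ?_
    refine ⟨G.U i ⊓ G'.U j ⊓ p ⁻¹ᵁ (W (d x hx.2)), ⟨hx.1, hd x hx.2⟩, ?_⟩
    exact ((hφ (d x hx.2)).on i j).congr fun y hy => (hχ _ i j y hy.2 hy.1.1 hy.1.2).symm
  · intro i i' j x hx hi hi' hj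
    rw [hχ _ i' j x (hd x hx) hi' hj, hχ _ i j x (hd x hx) hi hj]
    exact (hφ _).left i i' j x (hd x hx) hi hi' hj
  · intro i j j' x hx hi hj hj'
    rw [hχ _ i j x (hd x hx) hi hj, hχ _ i j' x (hd x hx) hi hj']
    exact (hφ _).right i j j' x (hd x hx) hi hj hj'

include hσ hp in
/-- gluing of rigidified cocycles along an open cover of the base -/
theorem exists_glue {I : Type u} (W : I → T.Opens) (G : I → Dat X)
    (hG : ∀ a, (G a).IsC (p ⁻¹ᵁ (W a))) (hr : ∀ a, ((G a).pb σ).Triv (W a))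
    (h : ∀ a b, (G a).Eqv (G b) (p ⁻¹ᵁ (W a ⊓ W b))) :
    ∃ G' : Dat X, G'.IsC (p ⁻¹ᵁ (⨆ a, W a)) ∧ (G'.pb σ).Triv (⨆ a, W a) ∧
      ∀ a, G'.Eqv (G a) (p ⁻¹ᵁ (W a)) := by
  classical
  choose r hr using hr
  have hle1 : ∀ a b, p ⁻¹ᵁ (W a ⊓ W b) ≤ p ⁻¹ᵁ (W a) := fun a b y hy => hy.1
  have hle2 : ∀ a b, p ⁻¹ᵁ (W a ⊓ W b) ≤ p ⁻¹ᵁ (W b) := fun a b y hy => hy.2
  have hex : ∀ a b, ∃ φ, (G a).IsIso (G b) (p ⁻¹ᵁ (W a ⊓ W b)) φ ∧
      NormIso σ (G a) (G b) (r a) (r b) (W a ⊓ W b) φ := by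
    intro a b
    obtain ⟨φ, hφ⟩ := h a b
    exact exists_normIso p σ hσ ((hG a).mono (hle1 a b)) ((hG b).mono (hle2 a b))
      ⟨fun i => ((hr a).on i).mono (inf_le_inf le_rfl inf_le_left),
        fun i j x hx => (hr a).eq i j x hx.1⟩
      ⟨fun i => ((hr b).on i).mono (inf_le_inf le_rfl inf_le_right),
        fun i j x hx => (hr b).eq i j x hx.2⟩ hφ
  choose φ hφ nφ using hex
  -- the cocycle condition
  have hcoc : ∀ a b c i j l x, p x ∈ W a → p x ∈ W b → p x ∈ W c → x ∈ (G a).U i →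
      x ∈ (G b).U j → x ∈ (G c).U l → φ a b i j x * φ b c j l x = φ a c i l x := by
    intro a b c i j l x ha hb hc hi hj hl
    let V : T.Opens := W a ⊓ W b ⊓ W c
    have lab : p ⁻¹ᵁ V ≤ p ⁻¹ᵁ (W a ⊓ W b) := fun y hy => hy.1
    have lbc : p ⁻¹ᵁ V ≤ p ⁻¹ᵁ (W b ⊓ W c) := fun y hy => ⟨hy.1.2, hy.2⟩
    have lac : p ⁻¹ᵁ V ≤ p ⁻¹ᵁ (W a ⊓ W c) := fun y hy => ⟨hy.1.1, hy.2⟩
    have hGa : (G a).IsC (p ⁻¹ᵁ V) := (hG a).mono fun y hy => hy.1.1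
    have hGb : (G b).IsC (p ⁻¹ᵁ V) := (hG b).mono fun y hy => hy.1.2
    have hGc : (G c).IsC (p ⁻¹ᵁ V) := (hG c).mono fun y hy => hy.2
    obtain ⟨χ, hχ, eχ⟩ := Dat.IsIso.trans hGb ((hφ a b).mono lab) ((hφ b c).mono lbc)
    have nχ : NormIso σ (G a) (G c) (r a) (r c) V χ := by
      intro i l τ hτ hi hl
      have hm : σ τ ∈ p ⁻¹ᵁ V := sigma_mem p σ hσ hτ
      obtain ⟨j, hj⟩ := hGb.cov _ hm
      have e1 := nφ a b i j τ hτ.1 hi hj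
      have e2 := nφ b c j l τ ⟨hτ.1.2, hτ.2⟩ hj hl
      rw [upb_apply, eχ i j l (σ τ) hm hi hj hl, map_mul, ← upb_apply, ← upb_apply, mul_assoc,
        e2, e1]
    have e3 := normIso_unique p σ hσ hp (W := V) hGa hGc hχ ((hφ a c).mono lac) nχ
      ((nφ a c).mono fun y hy => ⟨hy.1.1, hy.2⟩) i l x ⟨⟨ha, hb⟩, hc⟩ hi hl
    rw [← e3, eχ i j l x ⟨⟨ha, hb⟩, hc⟩ hi hj hl]
  let G' : Dat X :=
    { ι := Σ a, (G a).ι
      U := fun i => (G i.1).U i.2 ⊓ p ⁻¹ᵁ (W i.1)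
      g := fun i j => φ i.1 j.1 i.2 j.2 }
  have hps : ∀ τ, p (σ τ) = τ := p_sigma p σ hσ
  refine ⟨G', ⟨?_, ?_, ?_⟩, ⟨fun i => r i.1 i.2, ⟨?_, ?_⟩⟩, ?_⟩
  · intro x hx
    obtain ⟨a, ha⟩ := Opens.mem_iSup.mp (show p x ∈ ⨆ a, W a from hx)
    obtain ⟨i, hi⟩ := (hG a).cov x ha
    exact ⟨⟨a, i⟩, hi, ha⟩
  · intro i j
    refine ((hφ i.1 j.1).on i.2 j.2).mono ?_
    intro x hx
    exact ⟨⟨hx.1.1.1, hx.1.2.1⟩, ⟨hx.1.1.2, hx.1.2.2⟩⟩
  · intro i j l x _ hi hj hl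
    exact hcoc i.1 j.1 l.1 i.2 j.2 l.2 x hi.2 hj.2 hl.2 hi.1 hj.1 hl.1
  · intro i
    refine ((hr i.1).on i.2).mono ?_
    intro τ hτ
    have h1 : σ τ ∈ (G i.1).U i.2 ⊓ p ⁻¹ᵁ (W i.1) := hτ.1
    have h2 : p (σ τ) ∈ W i.1 := h1.2
    rw [hps] at h2
    exact ⟨h1.1, h2⟩
  · intro i j τ _ hi hj
    have h1 : σ τ ∈ (G i.1).U i.2 ⊓ p ⁻¹ᵁ (W i.1) := hi
    have h2 : σ τ ∈ (G j.1).U j.2 ⊓ p ⁻¹ᵁ (W j.1) := hj
    have h3 : p (σ τ) ∈ W i.1 := h1.2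
    have h4 : p (σ τ) ∈ W j.1 := h2.2
    rw [hps] at h3 h4
    exact nφ i.1 j.1 i.2 j.2 τ ⟨h3, h4⟩ h1.1 h2.1
  · intro a
    refine ⟨fun i j => φ i.1 a i.2 j, ⟨?_, ?_, ?_⟩⟩
    · intro i j
      refine ((hφ i.1 a).on i.2 j).mono ?_
      intro x hx
      exact ⟨⟨hx.1.1.1, hx.1.2⟩, ⟨hx.1.1.2, hx.2⟩⟩
    · intro i i' j x hx hi hi' hj
      exact hcoc i.1 i'.1 a i.2 i'.2 j x hi.2 hi'.2 hx hi.1 hi'.1 hj
    · intro i j j' x hx hi hj hj'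
      exact (hφ i.1 a).right i.2 j j' x ⟨hi.2, hx⟩ hi.1 hj hj'

end Glue

end Fermat.Agent.JC
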