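import Fermat.Agent.JC.Push
import Fermat.Agent.JMod.H1Def

set_option autoImplicit false

/-! Block C (S25): the dictionary between cocycle data and point-indexed cocycles. -/

noncomputable section

universe u

open CategoryTheory CategoryTheory.Limits AlgebraicGeometry TopologicalSpace Opposite
open Fermat.Agent.JMod (LC H1)

namespace Fermat.Agent.JC

variable {X Y Z T : Scheme.{u}}

/-! ### Triviality and isomorphy -/

theorem Dat.Triv.of_eqv {G G' : Dat X} {V : X.Opens} (hG' : G'.IsC V) (h : G.Eqv G' V)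
    (ht : G'.Triv V) : G.Triv V := by
  classical
  obtain ⟨φ, h⟩ := h
  obtain ⟨r, ht⟩ := ht
  choose c hc using hG'.cov
  have key : ∀ i j j' x, x ∈ V → x ∈ G.U i → x ∈ G'.U j → x ∈ G'.U j' →
      φ i j x * r j x = φ i j' x * r j' x := by
    intro i j j' x hx hi hj hj'
    rw [← h.right i j j' x hx hi hj hj', mul_assoc, ht.eq j j' x hx hj hj']
  let r' : G.ι → SU X := fun i x => if hx : x ∈ V then φ i (c x hx) x * r (c x hx) x else 1
  have hr' : ∀ i j x, x ∈ V → x ∈ G.U i → x ∈ G'.U j → r' i x = φ i j x * r j x := by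
    intro i j x hx hi hj
    show dite _ _ _ = _
    rw [dif_pos hx]
    exact key _ _ _ x hx hi (hc _ _) hj
  refine ⟨r', ⟨fun i => ?_, ?_⟩⟩
  · refine OnU.of_local fun x hx => ?_
    refine ⟨G.U i ⊓ G'.U (c x hx.2) ⊓ V, ⟨⟨hx.1, hc _ _⟩, hx.2⟩, ?_⟩
    refine ((h.on i (c x hx.2)).mul ((ht.on (c x hx.2)).mono ?_)).congr ?_
    · intro y hy; exact ⟨hy.1.2, hy.2⟩
    · intro y hy
      exact (hr' i _ y hy.2 hy.1.1 hy.1.2).symm
  · intro i j x hx hi hj
    rw [hr' j _ x hx hj (hc x hx), hr' i _ x hx hi (hc x hx), ← mul_assoc,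
      h.left i j _ x hx hi hj (hc x hx)]

/-! ### From point-indexed cocycles to data -/

/-- the data of a point-indexed cocycle -/
def toDat (c : LC X) : Dat X where
  ι := X
  U := c.U
  g x y := uext (c.g x y)

theorem toDat_g (c : LC X) (x y z : X) (hx : z ∈ c.U x) (hy : z ∈ c.U y) :
    (toDat c).g x y z = ug (c.g x y) z ⟨hx, hy⟩ := uext_apply _ _

theorem ug_jures {U V : X.Opens} (h : V ≤ U) (a : Γ(X, U)ˣ) (x : X) (hx : x ∈ V) :
    ug (JMod.ures h a) x hx = ug a x (h hx) := ug_ures h a x hx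

theorem ug_gr (c : LC X) (x y z : X) {W : X.Opens} (hx : W ≤ c.U x) (hy : W ≤ c.U y)
    (hz : z ∈ W) : ug (c.gr x y hx hy) z hz = (toDat c).g x y z := by
  unfold LC.gr
  rw [ug_jures, toDat_g c x y z (hx hz) (hy hz)]

theorem toDat_coc (c : LC X) (i j l x : X) (hi : x ∈ c.U i) (hj : x ∈ c.U j) (hl : x ∈ c.U l) :
    (toDat c).g i j x * (toDat c).g j l x = (toDat c).g i l x := by
  have h := c.gr_mul i j l (W := c.U i ⊓ c.U j ⊓ c.U l) (inf_le_left.trans inf_le_left)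
    (inf_le_left.trans inf_le_right) inf_le_right
  have hx : x ∈ c.U i ⊓ c.U j ⊓ c.U l := ⟨⟨hi, hj⟩, hl⟩
  have h1 : ug _ x hx = ug _ x hx := congrArg (fun a => ug a x hx) h
  rw [ug_mul, ug_gr, ug_gr, ug_gr] at h1
  exact h1

theorem toDat_isC (c : LC X) : (toDat c).IsC ⊤ where
  cov x _ := ⟨x, c.mem x⟩
  on i j := (OnU.uext (c.g i j)).mono inf_le_left
  coc i j l x _ hi hj hl := toDat_coc c i j l x hi hj hl

/-- cohomologous cocycles have isomorphic data -/
theorem eqv_of_rel {c c' : LC X} (h : c.Rel c') : (toDat c).Eqv (toDat c') ⊤ := by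
  obtain ⟨V, hV, h1, h2, h, hh⟩ := h
  let s : X → SU X := fun x => uext (h x)
  have hs : ∀ x z (hz : z ∈ V x), s x z = ug (h x) z hz := fun x z hz => uext_apply _ _
  have hrel : ∀ x y z, z ∈ V x → z ∈ V y →
      (toDat c).g x y z * s y z = s x z * (toDat c').g x y z := by
    intro x y z hx hy
    have hz : z ∈ V x ⊓ V y := ⟨hx, hy⟩
    have e : ug _ z hz = ug _ z hz :=
      congrArg (fun a => ug a z hz) (hh x y (V x ⊓ V y) inf_le_left inf_le_right)
    rw [ug_mul, ug_mul, ug_gr, ug_gr, ug_jures, ug_jures, ← hs x z hx, ← hs y z hy] at e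
    exact e
  have hC := toDat_isC c
  have hC' := toDat_isC c'
  let φ : X → X → SU X := fun i j x =>
    (toDat c).g i x x * s x x * (toDat c').g x j x
  have hφ : ∀ (i j x₀ x : X), x ∈ V x₀ → x ∈ c.U i → x ∈ c'.U j →
      φ i j x = (toDat c).g i x₀ x * s x₀ x * (toDat c').g x₀ j x := by
    intro i j x₀ x hx hi hj
    have e1 := hrel x₀ x x hx (hV x)
    have e2 := hC.coc i x₀ x x trivial hi (h1 _ hx) (c.mem x)
    have e3 := hC'.coc x₀ x j x trivial (h2 _ hx) (c'.mem x) hj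
    show (toDat c).g i x x * s x x * (toDat c').g x j x = _
    rw [← e2, mul_assoc ((toDat c).g i x₀ x), e1, ← e3]
    simp only [mul_assoc]
  refine ⟨φ, ⟨?_, ?_, ?_⟩⟩
  · intro i j
    refine OnU.of_local fun x hx => ?_
    refine ⟨c.U i ⊓ c'.U j ⊓ V x, ⟨hx.1, hV x⟩, ?_⟩
    have m1 : OnU (c.U i ⊓ c'.U j ⊓ V x) ((toDat c).g i x) :=
      (OnU.uext (c.g i x)).mono fun y hy => ⟨hy.1.1, h1 _ hy.2⟩
    have m2 : OnU (c.U i ⊓ c'.U j ⊓ V x) (s x) :=
      (OnU.uext (h x)).mono fun y hy => hy.2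
    have m3 : OnU (c.U i ⊓ c'.U j ⊓ V x) ((toDat c').g x j) :=
      (OnU.uext (c'.g x j)).mono fun y hy => ⟨h2 _ hy.2, hy.1.2⟩
    exact ((m1.mul m2).mul m3).congr fun y hy => (hφ i j x y hy.2 hy.1.1 hy.1.2).symm
  · intro i i' j x _ hi hi' hj
    show (toDat c).g i i' x * ((toDat c).g i' x x * s x x * (toDat c').g x j x) =
      (toDat c).g i x x * s x x * (toDat c').g x j x
    rw [← mul_assoc, ← mul_assoc, hC.coc i i' x x trivial hi hi' (c.mem x)]
  · intro i j j' x _ hi hj hj'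
    show (toDat c).g i x x * s x x * (toDat c').g x j x * (toDat c').g j j' x =
      (toDat c).g i x x * s x x * (toDat c').g x j' x
    rw [mul_assoc _ ((toDat c').g x j x), hC'.coc x j j' x trivial (c'.mem x) hj hj']

theorem rel_of_eqv {c c' : LC X} (h : (toDat c).Eqv (toDat c') ⊤) : c.Rel c' := by
  obtain ⟨φ, h⟩ := h
  have hex : ∀ x : X, ∃ a : Γ(X, c.U x ⊓ c'.U x)ˣ, ∀ z (hz : z ∈ c.U x ⊓ c'.U x),
      ug a z hz = φ x x z := fun x =>
    ((h.on x x).mono (le_inf le_rfl le_top)).exists_unit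
  choose a ha using hex
  refine ⟨fun x => c.U x ⊓ c'.U x, fun x => ⟨c.mem x, c'.mem x⟩, fun x => inf_le_left,
    fun x => inf_le_right, a, ?_⟩
  intro x y W hx hy
  refine ug_ext fun z hz => ?_
  rw [ug_mul, ug_mul, ug_gr, ug_gr, ug_jures, ug_jures, ha, ha,
    h.left x y y z trivial (hx hz).1 (hy hz).1 (hy hz).2,
    h.right x x y z trivial (hx hz).1 (hx hz).2 (hy hz).2]

theorem mk_eq_iff_eqv (c c' : LC X) : H1.mk c = H1.mk c' ↔ (toDat c).Eqv (toDat c') ⊤ :=
  (H1.mk_eq_iff c c').trans ⟨eqv_of_rel, rel_of_eqv⟩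

/-- every cocycle datum is isomorphic to a point-indexed cocycle -/
theorem exists_toDat {G : Dat X} (hG : G.IsC ⊤) : ∃ c : LC X, (toDat c).Eqv G ⊤ := by
  choose i hi using fun x : X => hG.cov x trivial
  choose a ha using fun x y : X =>
    ((hG.on (i x) (i y)).mono (le_inf le_rfl le_top)).exists_unit
  let c : LC X :=
    { U := fun x => G.U (i x)
      mem := hi
      g := a
      cocycle := by
        intro x y z W hx hy hz
        refine ug_ext fun w hw => ?_
        rw [ug_mul, ug_jures, ug_jures, ug_jures, ha, ha, ha]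
        exact hG.coc _ _ _ w trivial (hx hw) (hy hw) (hz hw) }
  have hg : ∀ x y z, z ∈ G.U (i x) → z ∈ G.U (i y) → (toDat c).g x y z = G.g (i x) (i y) z := by
    intro x y z hx hy
    rw [toDat_g c x y z hx hy]
    exact ha x y z ⟨hx, hy⟩
  refine ⟨c, fun x j => G.g (i x) j, ⟨fun x j => hG.on (i x) j, ?_, ?_⟩⟩
  · intro x y j z _ hx hy hj
    rw [hg x y z hx hy]
    exact hG.coc _ _ _ z trivial hx hy hj
  · intro x j j' z _ hx hj hj'
    exact hG.coc _ _ _ z trivial hx hj hj'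

theorem ug_jupb (f : Y ⟶ X) {U : X.Opens} {V : Y.Opens} (e : V ≤ f ⁻¹ᵁ U) (a : Γ(X, U)ˣ) (y : Y)
    (hy : y ∈ V) : ug (JMod.upb f e a) y hy =
      Units.map (f.stalkMap y).hom.toMonoidHom (ug a (f y) (e hy)) := by
  have h1 : JMod.upb f e a = ures e (upbs f U a) := by
    ext
    rfl
  rw [h1, ug_ures, ug_upbs]

/-- data of the pull-back -/
theorem toDat_pb (f : Y ⟶ X) (c : LC X) : (toDat (c.pb f)).Eqv ((toDat c).pb f) ⊤ := by
  have hC := (toDat_isC c).pb f
  have hg : ∀ y y' z, z ∈ f ⁻¹ᵁ c.U (f y) → z ∈ f ⁻¹ᵁ c.U (f y') →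
      (toDat (c.pb f)).g y y' z = upb f ((toDat c).g (f y) (f y')) z := by
    intro y y' z hy hy'
    rw [toDat_g (c.pb f) y y' z hy hy', upb_apply, toDat_g c (f y) (f y') (f z) hy hy']
    exact ug_jupb f _ _ z _
  refine ⟨fun y x => upb f ((toDat c).g (f y) x), ⟨fun y x => hC.on (f y) x, ?_, ?_⟩⟩
  · intro y y' x z _ hy hy' hx
    rw [hg y y' z hy hy']
    exact hC.coc (f y) (f y') x z trivial hy hy' hx
  · intro y x x' z _ hy hx hx'
    exact hC.coc (f y) x x' z trivial hy hx hx'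

theorem toDat_one_g (i j x : X) : (toDat (LC.one X)).g i j x = 1 :=
  (toDat_g (LC.one X) i j x trivial trivial).trans (ug_one _ _)

theorem rel_one_iff_triv (c : LC X) : c.Rel (LC.one X) ↔ (toDat c).Triv ⊤ := by
  constructor
  · intro h
    refine Dat.Triv.of_eqv (toDat_isC _) (eqv_of_rel h) ⟨fun _ => 1, ⟨fun i => OnU.one, ?_⟩⟩
    intro i j x _ _ _
    exact (congrArg (· * (1 : SU X) x) (toDat_one_g i j x)).trans (one_mul _)
  · rintro ⟨r, hr⟩
    refine rel_of_eqv ⟨fun i _ => r i, ⟨fun i j => (hr.on i).mono ?_, ?_, ?_⟩⟩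
    · intro x hx
      exact ⟨hx.1.1, hx.2⟩
    · intro i i' j x _ hi hi' _
      exact hr.eq i i' x trivial hi hi'
    · intro i j j' x _ _ _ _
      exact (congrArg (r i x * ·) (toDat_one_g j j' x)).trans (mul_one _)

end Fermat.Agent.JC
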