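import Fermat.Agent.JC.Z
import Fermat.Agent.JC.Dict
import Fermat.Agent.JMod.H1Group
import Fermat.Agent.JH.Rel

set_option autoImplicit false

/-! Block C (S25): the functor of rigidified classes of cocycles and its Zariski sheaf property. -/

noncomputable section

universe u

open CategoryTheory CategoryTheory.Limits AlgebraicGeometry TopologicalSpace Opposite
open NeronModelInfra AlgebraicGeometry.RelPicard
open Fermat.Agent.JMod (LC H1)

namespace Fermat.Agent.JC

section

variable {X X' Y : Scheme.{u}}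

theorem map_mk_eq_map_mk_iff (f : Y ⟶ X) (f' : Y ⟶ X') (a : LC X) (b : LC X') :
    H1.map f (H1.mk a) = H1.map f' (H1.mk b) ↔ ((toDat a).pb f).Eqv ((toDat b).pb f') ⊤ := by
  rw [H1.map_mk, H1.map_mk, mk_eq_iff_eqv]
  have h1 := toDat_pb f a
  have h2 := toDat_pb f' b
  have c1 : (toDat (a.pb f)).IsC ⊤ := toDat_isC _
  have c2 : (toDat (b.pb f')).IsC ⊤ := toDat_isC _
  have c3 : ((toDat a).pb f).IsC ⊤ := (toDat_isC a).pb f
  have c4 : ((toDat b).pb f').IsC ⊤ := (toDat_isC b).pb f'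
  constructor
  · intro h
    exact Dat.Eqv.trans c2 (Dat.Eqv.trans c1 (h1.symm c1 c3) h) h2
  · intro h
    exact Dat.Eqv.trans c4 (Dat.Eqv.trans c3 h1 h) (h2.symm c2 c4)

theorem map_mk_eq_mk_iff (f : Y ⟶ X) (a : LC X) (b : LC Y) :
    H1.map f (H1.mk a) = H1.mk b ↔ ((toDat a).pb f).Eqv (toDat b) ⊤ := by
  rw [H1.map_mk, mk_eq_iff_eqv]
  have h1 := toDat_pb f a
  have c1 : (toDat (a.pb f)).IsC ⊤ := toDat_isC _
  have c3 : ((toDat a).pb f).IsC ⊤ := (toDat_isC a).pb f
  constructor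
  · intro h
    exact Dat.Eqv.trans c1 (h1.symm c1 c3) h
  · intro h
    exact Dat.Eqv.trans c3 h1 h

theorem mk_eq_one_iff_triv (a : LC X) : H1.mk a = 1 ↔ (toDat a).Triv ⊤ := by
  rw [← H1.mk_one, H1.mk_eq_iff]
  exact rel_one_iff_triv a

theorem map_mk_eq_one_iff (f : Y ⟶ X) (a : LC X) :
    H1.map f (H1.mk a) = 1 ↔ ((toDat a).pb f).Triv ⊤ := by
  rw [H1.map_mk, mk_eq_one_iff_triv]
  have h1 := toDat_pb f a
  have c1 : (toDat (a.pb f)).IsC ⊤ := toDat_isC _
  have c3 : ((toDat a).pb f).IsC ⊤ := (toDat_isC a).pb f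
  exact ⟨Dat.Triv.of_eqv c1 (h1.symm c1 c3), Dat.Triv.of_eqv c3 h1⟩

end

section

variable {k : Type u} [CommRing k] {C : Scheme.{u}} (c : C ⟶ Spec (CommRingCat.of k))
  (ε : SchemeHomOver (𝟙 (Spec (CommRingCat.of k))) c)

/-- rigidified classes of cocycles -/
def Fob {T : Scheme.{u}} (t : T ⟶ Spec (CommRingCat.of k)) : Type u :=
  {h : H1 (pullback c t) // H1.map (rigSection c t ε) h = 1}

instance {T : Scheme.{u}} (t : T ⟶ Spec (CommRingCat.of k)) : CommGroup (Fob c ε t) :=
  inferInstanceAs (CommGroup (H1.map (rigSection c t ε)).ker)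

variable {T T' T'' : Scheme.{u}} {t : T ⟶ Spec (CommRingCat.of k)}
  {t' : T' ⟶ Spec (CommRingCat.of k)} {t'' : T'' ⟶ Spec (CommRingCat.of k)}

/-- the inclusion -/
def Fob.val : Fob c ε t →* H1 (pullback c t) := (H1.map (rigSection c t ε)).ker.subtype

theorem Fob.val_injective : Function.Injective (Fob.val c ε (t := t)) := Subtype.val_injective

theorem Fob.val_eq (x : Fob c ε t) : Fob.val c ε x = x.1 := rfl

theorem Fob.rig (x : Fob c ε t) : H1.map (rigSection c t ε) (Fob.val c ε x) = 1 := x.2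

/-- functoriality of rigidified classes -/
def Fmap (g : SchemeHomOver t' t) : Fob c ε t →* Fob c ε t' :=
  ((H1.map (baseChangeSnd c g)).comp (Fob.val c ε)).codRestrict
    (H1.map (rigSection c t' ε)).ker (fun x => by
      show H1.map (rigSection c t' ε) (H1.map (baseChangeSnd c g) (Fob.val c ε x)) = 1
      rw [← H1.map_comp, H1.map_congr (rigSection_baseChangeSnd c ε g), H1.map_comp,
        Fob.rig, map_one])

theorem val_Fmap (g : SchemeHomOver t' t) (x : Fob c ε t) :
    Fob.val c ε (Fmap c ε g x) = H1.map (baseChangeSnd c g) (Fob.val c ε x) := rfl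

theorem Fmap_id (x : Fob c ε t) : Fmap c ε ⟨𝟙 T, Category.id_comp t⟩ x = x := by
  apply Fob.val_injective
  rw [val_Fmap, H1.map_congr (baseChangeSnd_id c t), H1.map_id]

theorem Fmap_comp (g : SchemeHomOver t' t) (g' : SchemeHomOver t'' t') (x : Fob c ε t) :
    Fmap c ε g' (Fmap c ε g x) =
      Fmap c ε ⟨g'.1 ≫ g.1, by rw [Category.assoc, g.2, g'.2]⟩ x := by
  apply Fob.val_injective
  rw [val_Fmap, val_Fmap, val_Fmap, ← H1.map_comp, H1.map_congr (baseChangeSnd_comp c g g')]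
  rfl

/-- the functor of rigidified classes of cocycles -/
def P : JH.RelFun (Spec (CommRingCat.of k)) where
  obj t := Fob c ε t
  map g := Fmap c ε g
  map_id _ x := Fmap_id c ε x
  map_comp g g' x := Fmap_comp c ε g g' x

theorem P_obj : (P c ε).obj t = {h : H1 (pullback c t) // H1.map (rigSection c t ε) h = 1} := rfl

instance : CommGroup ((P c ε).obj t) := inferInstanceAs (CommGroup (Fob c ε t))

/-- the functoriality as homomorphism of groups -/
def PmapHom (g : SchemeHomOver t' t) : (P c ε).obj t →* (P c ε).obj t' := Fmap c ε g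

theorem PmapHom_apply (g : SchemeHomOver t' t) (x : (P c ε).obj t) :
    PmapHom c ε g x = (P c ε).map g x := rfl

theorem P_map_mul (g : SchemeHomOver t' t) (x y : (P c ε).obj t) :
    (P c ε).map g (x * y) = (P c ε).map g x * (P c ε).map g y := map_mul (Fmap c ε g) x y

theorem P_map_one (g : SchemeHomOver t' t) : (P c ε).map g 1 = 1 := map_one (Fmap c ε g)

theorem P_map_inv (g : SchemeHomOver t' t) (x : (P c ε).obj t) :
    (P c ε).map g x⁻¹ = ((P c ε).map g x)⁻¹ := map_inv (Fmap c ε g) x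

theorem P_map_val (g : SchemeHomOver t' t) (x : (P c ε).obj t) :
    ((P c ε).map g x).1 = H1.map (baseChangeSnd c g) x.1 := rfl

theorem P_val_mul (x y : (P c ε).obj t) : (x * y).1 = x.1 * y.1 := rfl

theorem P_val_one : (1 : (P c ε).obj t).1 = 1 := rfl

end

section

variable {k : Type u} [Field k] [IsAlgClosed k] {C : Scheme.{u}} (c : C ⟶ Spec (CommRingCat.of k))
  [IsProper c] [IsIntegral C] (ε : SchemeHomOver (𝟙 (Spec (CommRingCat.of k))) c)

/-- **the functor of rigidified classes is a Zariski sheaf** -/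
theorem isZ_P : (P c ε).IsZ where
  sep {T} t 𝒰 x y h := by
    obtain ⟨x, hx⟩ := x
    obtain ⟨y, hy⟩ := y
    obtain ⟨a, rfl⟩ := H1.exists_mk x
    obtain ⟨b, rfl⟩ := H1.exists_mk y
    refine Subtype.ext ((mk_eq_iff_eqv a b).2 ?_)
    refine dat_sep c t ε 𝒰 (toDat_isC a) (toDat_isC b) ((map_mk_eq_one_iff _ a).1 hx)
      ((map_mk_eq_one_iff _ b).1 hy) fun i => ?_
    exact (map_mk_eq_map_mk_iff _ _ a b).1 (congrArg Subtype.val (h i))
  glue {T} t 𝒰 x h := by
    choose a ha using fun i => H1.exists_mk (x i).1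
    obtain ⟨G, h1, h2, h3⟩ := dat_glue c t ε 𝒰 (fun i => toDat (a i)) (fun i => toDat_isC _)
      (fun i => by
        refine (map_mk_eq_one_iff _ (a i)).1 ?_
        rw [ha]
        exact (x i).2)
      (fun i j => by
        refine (map_mk_eq_map_mk_iff _ _ (a i) (a j)).1 ?_
        rw [ha, ha]
        exact congrArg Subtype.val (h i j))
    obtain ⟨d, hd⟩ := exists_toDat h1
    refine ⟨⟨H1.mk d, (map_mk_eq_one_iff _ d).2 ?_⟩, fun i => Subtype.ext ?_⟩
    · exact Dat.Triv.of_eqv (h1.pb _) (hd.pb _) h2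
    · rw [← ha i]
      exact (map_mk_eq_mk_iff _ d (a i)).2 (Dat.Eqv.trans (h1.pb _) (hd.pb _) (h3 i))

end

end Fermat.Agent.JC
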