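import Fermat.Agent.JC.Dat

set_option autoImplicit false

/-! Block C (S25): unit functions and cocycles along open immersions. -/

noncomputable section

universe u

open CategoryTheory CategoryTheory.Limits AlgebraicGeometry TopologicalSpace Opposite

namespace Fermat.Agent.JC

variable {X Y Z T : Scheme.{u}}

section

variable (j : Y ⟶ X) [IsOpenImmersion j]

/-- stalk units along an open immersion -/
def stE (y : Y) : (X.presheaf.stalk (j y))ˣ ≃* (Y.presheaf.stalk y)ˣ :=
  Units.mapEquiv (asIso (j.stalkMap y)).commRingCatIsoToRingEquiv.toMulEquiv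

theorem stE_apply (s : SU X) (y : Y) : stE j y (s (j y)) = upb j s y := by
  ext
  rfl

theorem eq_of_upb {s s' : SU X} {y : Y} (h : upb j s y = upb j s' y) : s (j y) = s' (j y) := by
  rw [← stE_apply, ← stE_apply] at h
  exact (stE j y).injective h

open Classical in
/-- extension by one of a unit function along an open immersion -/
def upush (s : SU Y) : SU X := fun x =>
  if h : ∃ y, j y = x then h.choose_spec ▸ (stE j h.choose).symm (s h.choose) else 1

theorem upush_apply (s : SU Y) (y : Y) : upush j s (j y) = (stE j y).symm (s y) := by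
  have h : ∃ z, j z = j y := ⟨y, rfl⟩
  have key : ∀ (z : Y) (e : j z = j y),
      (e ▸ (stE j z).symm (s z) : (X.presheaf.stalk (j y))ˣ) = (stE j y).symm (s y) := by
    intro z e
    obtain rfl : z = y := j.isOpenEmbedding.injective e
    rfl
  unfold upush
  rw [dif_pos h]
  exact key _ h.choose_spec

theorem upb_upush (s : SU Y) : upb j (upush j s) = s := by
  funext y
  rw [← stE_apply, upush_apply, MulEquiv.apply_symm_apply]

theorem onU_of_upb {V : X.Opens} (hV : V ≤ j.opensRange) {s : SU X}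
    (h : OnU (j ⁻¹ᵁ V) (upb j s)) : OnU V s := by
  intro x hx
  obtain ⟨y, rfl⟩ := hV hx
  obtain ⟨U, hU, a, ha⟩ := h y hx
  refine ⟨j ''ᵁ U, ⟨y, hU, rfl⟩, Units.map (j.appIso U).inv.hom.toMonoidHom a, ?_⟩
  rintro _ ⟨z, hz, rfl⟩
  have hz' : j z ∈ j ''ᵁ U := ⟨z, hz, rfl⟩
  have hz'' : z ∈ j ⁻¹ᵁ (j ''ᵁ U) := hz'
  refine (stE j z).injective ?_
  refine Eq.trans ?_ ((ha z hz).trans (stE_apply j s z).symm)
  ext
  rw [ug_val]
  show j.stalkMap z (X.presheaf.germ (j ''ᵁ U) (j z) hz' ((j.appIso U).inv (a : Γ(Y, U)))) = _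
  have e1 := Scheme.Hom.germ_stalkMap_apply j (j ''ᵁ U) z hz' ((j.appIso U).inv (a : Γ(Y, U)))
  have e2 : j.app (j ''ᵁ U) ((j.appIso U).inv (a : Γ(Y, U))) =
      Y.presheaf.map (eqToHom (j.preimage_image_eq U)).op (a : Γ(Y, U)) :=
    congr($(j.appIso_inv_app U) (a : Γ(Y, U)))
  have e3 := TopCat.Presheaf.germ_res_apply Y.presheaf (eqToHom (j.preimage_image_eq U)) z hz''
    (a : Γ(Y, U))
  refine e1.trans ?_
  rw [e2]
  exact e3

theorem onU_upush {V : Y.Opens} {s : SU Y} (h : OnU V s) : OnU (j ''ᵁ V) (upush j s) := by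
  refine onU_of_upb j (Scheme.Hom.image_le_opensRange j V) ?_
  rw [upb_upush, j.preimage_image_eq]
  exact h

/-- push-forward of data along an open immersion -/
def Dat.push (G : Dat Y) : Dat X where
  ι := G.ι
  U i := j ''ᵁ G.U i
  g i i' := upush j (G.g i i')

theorem Dat.push_pb (G : Dat Y) : (G.push j).pb j = G := by
  obtain ⟨ι, U, g⟩ := G
  unfold Dat.push Dat.pb
  dsimp only
  congr 1
  · funext i; exact j.preimage_image_eq (U i)
  · funext i i'; exact upb_upush j (g i i')

theorem Dat.pb_pb (f : Z ⟶ Y) (g : Y ⟶ X) (G : Dat X) : (G.pb g).pb f = G.pb (f ≫ g) := by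
  unfold Dat.pb
  dsimp only
  congr 1
  funext i i'
  exact (upb_comp f g (G.g i i')).symm

theorem Dat.pb_congr {f g : Y ⟶ X} (h : f = g) (G : Dat X) : G.pb f = G.pb g := by rw [h]

theorem Dat.IsC.push {G : Dat Y} (h : G.IsC ⊤) : (G.push j).IsC j.opensRange where
  cov := by
    rintro _ ⟨y, rfl⟩
    obtain ⟨i, hi⟩ := h.cov y trivial
    exact ⟨i, y, hi, rfl⟩
  on i i' := by
    refine OnU.mono (onU_upush j (h.on i i')) ?_
    rintro x ⟨⟨⟨y, hy, rfl⟩, ⟨y', hy', e⟩⟩, -⟩
    obtain rfl : y' = y := j.isOpenEmbedding.injective e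
    exact ⟨y', ⟨⟨hy, hy'⟩, trivial⟩, rfl⟩
  coc i i' i'' := by
    rintro _ ⟨y, rfl⟩ h1 h2 h3
    have m : ∀ i, j y ∈ j ''ᵁ G.U i → y ∈ G.U i := by
      rintro i ⟨y', hy', e⟩
      obtain rfl : y' = y := j.isOpenEmbedding.injective e
      exact hy'
    have := h.coc i i' i'' y trivial (m _ h1) (m _ h2) (m _ h3)
    show upush j (G.g i i') (j y) * upush j (G.g i' i'') (j y) = upush j (G.g i i'') (j y)
    rw [upush_apply, upush_apply, upush_apply, ← map_mul, this]

/-- isomorphy descends along open immersions -/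
theorem Dat.Eqv.of_pb {G G' : Dat X} {V : X.Opens} (hV : V ≤ j.opensRange)
    (h : (G.pb j).Eqv (G'.pb j) (j ⁻¹ᵁ V)) : G.Eqv G' V := by
  obtain ⟨φ, h⟩ := h
  refine ⟨fun i i' => upush j (φ i i'), ⟨fun i i' => ?_, ?_, ?_⟩⟩
  · refine onU_of_upb j (inf_le_right.trans hV) ?_
    rw [upb_upush]
    exact h.on i i'
  · intro i i' l x hx hi hi' hl
    obtain ⟨y, rfl⟩ := hV hx
    have := h.left i i' l y hx hi hi' hl
    refine (stE j y).injective ?_
    rw [upush_apply, upush_apply, map_mul, MulEquiv.apply_symm_apply, MulEquiv.apply_symm_apply,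
      stE_apply]
    exact this
  · intro i l l' x hx hi hl hl'
    obtain ⟨y, rfl⟩ := hV hx
    have := h.right i l l' y hx hi hl hl'
    refine (stE j y).injective ?_
    rw [upush_apply, upush_apply, map_mul, MulEquiv.apply_symm_apply, MulEquiv.apply_symm_apply,
      stE_apply]
    exact this

/-- trivialisations descend along open immersions -/
theorem Dat.Triv.of_pb {G : Dat X} {V : X.Opens} (hV : V ≤ j.opensRange)
    (h : (G.pb j).Triv (j ⁻¹ᵁ V)) : G.Triv V := by
  obtain ⟨r, h⟩ := h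
  refine ⟨fun i => upush j (r i), ⟨fun i => ?_, ?_⟩⟩
  · refine onU_of_upb j (inf_le_right.trans hV) ?_
    rw [upb_upush]
    exact h.on i
  · intro i i' x hx hi hi'
    obtain ⟨y, rfl⟩ := hV hx
    have := h.eq i i' y hx hi hi'
    refine (stE j y).injective ?_
    rw [upush_apply, upush_apply, map_mul, MulEquiv.apply_symm_apply, MulEquiv.apply_symm_apply,
      stE_apply]
    exact this

end

theorem Dat.IsTriv.pb (f : Y ⟶ X) {G : Dat X} {V : X.Opens} {r : G.ι → SU X} (h : G.IsTriv V r) :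
    (G.pb f).IsTriv (f ⁻¹ᵁ V) (fun i => upb f (r i)) where
  on i := (h.on i).upb f
  eq i i' y hy hi hi' := by
    have := h.eq i i' (f y) hy hi hi'
    show upb f (G.g i i') y * upb f (r i') y = upb f (r i) y
    rw [upb_apply, upb_apply, upb_apply, ← map_mul, this]

theorem Dat.Triv.pb (f : Y ⟶ X) {G : Dat X} {V : X.Opens} (h : G.Triv V) :
    (G.pb f).Triv (f ⁻¹ᵁ V) := by
  obtain ⟨r, h⟩ := h
  exact ⟨_, h.pb f⟩

end Fermat.Agent.JC
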