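import Fermat.Agent.JC.Fun
import Fermat.Agent.JH.GInst

set_option autoImplicit false

/-! S25: representability of the functor of rigidified classes from the dictionary. -/

noncomputable section

universe u

open CategoryTheory CategoryTheory.Limits AlgebraicGeometry NeronModelInfra
open AlgebraicGeometry.RelPicard
open Fermat.Agent.JMod (H1)

namespace Fermat.Agent.JC

variable {k : Type u} [Field k] [IsAlgClosed k] {C : Scheme.{u}} (c : C ⟶ Spec (CommRingCat.of k))
  [IsProper c] [IsIntegral C] (ε : SchemeHomOver (𝟙 (Spec (CommRingCat.of k))) c)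
  (X : JPC.TwoChart k)

/-- **representability** (`P` form) -/
theorem exists_J_P (D : JH.Dict X (P c ε)) (hF : JPC.FStmt X) (hI : JPC.CoverStmt X) :
    ∃ (J : Scheme.{u}) (p : J ⟶ Spec (CommRingCat.of k)) (univ : (P c ε).obj p),
      (∀ {T : Scheme.{u}} (t : T ⟶ Spec (CommRingCat.of k)) (h : (P c ε).obj t),
        ∃! g : SchemeHomOver t p, (P c ε).map g univ = h) ∧ LocallyOfFiniteType p :=
  JH.exists_J D (JH.chartAlg) (JH.gFacts X) (fun g x y => P_map_mul c ε g x y) (isZ_P c ε) hF hI

variable {c ε X}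

/-- the universal property in the form of `H1` -/
theorem univ_H1 {J : Scheme.{u}} {p : J ⟶ Spec (CommRingCat.of k)} {univ : (P c ε).obj p}
    (hu : ∀ {T : Scheme.{u}} (t : T ⟶ Spec (CommRingCat.of k)) (h : (P c ε).obj t),
        ∃! g : SchemeHomOver t p, (P c ε).map g univ = h)
    {T : Scheme.{u}} (t : T ⟶ Spec (CommRingCat.of k)) (h : H1 (pullback c t))
    (hh : H1.map (rigSection c t ε) h = 1) :
    ∃! g : SchemeHomOver t p, H1.map (baseChangeSnd c g) univ.1 = h := by
  obtain ⟨g, hg, hu⟩ := hu t ⟨h, hh⟩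
  exact ⟨g, congrArg Subtype.val hg, fun g' hg' => hu g' (Subtype.ext hg')⟩

end Fermat.Agent.JC
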