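import Mathlib

set_option autoImplicit false

/-! Block C (S25): germ calculus for local units on a scheme. A "unit function" is a family of units of
all stalks; it is a section over an open set if locally it is given by units of the structure sheaf. -/

noncomputable section

universe u

open CategoryTheory CategoryTheory.Limits AlgebraicGeometry TopologicalSpace Opposite

namespace Fermat.Agent.JC

variable {X Y Z : Scheme.{u}}

/-- germ of a unit -/
def ug {U : X.Opens} (a : Γ(X, U)ˣ) (x : X) (hx : x ∈ U) : (X.presheaf.stalk x)ˣ :=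
  Units.map (X.presheaf.germ U x hx).hom.toMonoidHom a

theorem ug_val {U : X.Opens} (a : Γ(X, U)ˣ) (x : X) (hx : x ∈ U) :
    ((ug a x hx : (X.presheaf.stalk x)ˣ) : X.presheaf.stalk x) =
      X.presheaf.germ U x hx (a : Γ(X, U)) := rfl

theorem ug_mul {U : X.Opens} (a b : Γ(X, U)ˣ) (x : X) (hx : x ∈ U) :
    ug (a * b) x hx = ug a x hx * ug b x hx := map_mul _ _ _

theorem ug_inv {U : X.Opens} (a : Γ(X, U)ˣ) (x : X) (hx : x ∈ U) :
    ug (a⁻¹) x hx = (ug a x hx)⁻¹ := map_inv _ _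

theorem ug_one {U : X.Opens} (x : X) (hx : x ∈ U) : ug (1 : Γ(X, U)ˣ) x hx = 1 := map_one _

/-- restriction of a unit -/
def ures {U V : X.Opens} (h : V ≤ U) : Γ(X, U)ˣ →* Γ(X, V)ˣ :=
  Units.map (X.presheaf.map (homOfLE h).op).hom.toMonoidHom

theorem ug_ures {U V : X.Opens} (h : V ≤ U) (a : Γ(X, U)ˣ) (x : X) (hx : x ∈ V) :
    ug (ures h a) x hx = ug a x (h hx) := by
  ext
  rw [ug_val, ug_val]
  exact TopCat.Presheaf.germ_res_apply X.presheaf (homOfLE h) x hx _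

theorem ug_ext {U : X.Opens} {a b : Γ(X, U)ˣ} (h : ∀ x hx, ug a x hx = ug b x hx) : a = b := by
  ext
  refine TopCat.Presheaf.section_ext X.sheaf U _ _ fun x hx => ?_
  exact congrArg Units.val (h x hx)

variable (X) in
/-- unit functions -/
abbrev SU := ∀ x : X, (X.presheaf.stalk x)ˣ

/-- `s` is locally on `W` a unit section -/
def OnU (W : X.Opens) (s : SU X) : Prop :=
  ∀ x ∈ W, ∃ U : X.Opens, x ∈ U ∧ ∃ a : Γ(X, U)ˣ, ∀ y (hy : y ∈ U), ug a y hy = s y

theorem OnU.mono {W W' : X.Opens} {s : SU X} (h : OnU W s) (hW : W' ≤ W) : OnU W' s :=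
  fun x hx => h x (hW hx)

theorem OnU.mul {W : X.Opens} {s s' : SU X} (h : OnU W s) (h' : OnU W s') : OnU W (s * s') := by
  intro x hx
  obtain ⟨U, hU, a, ha⟩ := h x hx
  obtain ⟨V, hV, b, hb⟩ := h' x hx
  refine ⟨U ⊓ V, ⟨hU, hV⟩, ures inf_le_left a * ures inf_le_right b, fun y hy => ?_⟩
  rw [ug_mul, ug_ures, ug_ures, ha y hy.1, hb y hy.2]
  rfl

theorem OnU.inv {W : X.Opens} {s : SU X} (h : OnU W s) : OnU W s⁻¹ := by
  intro x hx
  obtain ⟨U, hU, a, ha⟩ := h x hx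
  exact ⟨U, hU, a⁻¹, fun y hy => by rw [ug_inv, ha y hy]; rfl⟩

theorem OnU.one {W : X.Opens} : OnU W (1 : SU X) :=
  fun _ hx => ⟨W, hx, 1, fun _ _ => ug_one _ _⟩

theorem OnU.congr {W : X.Opens} {s s' : SU X} (h : OnU W s) (hs : ∀ x ∈ W, s x = s' x) :
    OnU W s' := by
  intro x hx
  obtain ⟨U, hU, a, ha⟩ := h x hx
  exact ⟨U ⊓ W, ⟨hU, hx⟩, ures inf_le_left a, fun y hy => by
    rw [ug_ures, ha y hy.1, hs y hy.2]⟩

/-- locality -/
theorem OnU.of_local {W : X.Opens} {s : SU X}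
    (h : ∀ x ∈ W, ∃ U : X.Opens, x ∈ U ∧ OnU U s) : OnU W s := by
  intro x hx
  obtain ⟨U, hU, h1⟩ := h x hx
  exact h1 x hU

theorem OnU.of_ug {U : X.Opens} (a : Γ(X, U)ˣ) {s : SU X} (h : ∀ y (hy : y ∈ U), ug a y hy = s y) :
    OnU U s := fun _ hx => ⟨U, hx, a, h⟩

open Classical in
/-- extension by one of a unit section -/
def uext {U : X.Opens} (a : Γ(X, U)ˣ) : SU X := fun x => if hx : x ∈ U then ug a x hx else 1

theorem uext_apply {U : X.Opens} (a : Γ(X, U)ˣ) {x : X} (hx : x ∈ U) : uext a x = ug a x hx :=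
  dif_pos hx

theorem OnU.uext {U : X.Opens} (a : Γ(X, U)ˣ) : OnU U (uext a) :=
  OnU.of_ug a fun _ hy => (uext_apply a hy).symm

/-- gluing of unit sections -/
theorem OnU.exists_unit {W : X.Opens} {s : SU X} (h : OnU W s) :
    ∃ a : Γ(X, W)ˣ, ∀ x (hx : x ∈ W), ug a x hx = s x := by
  choose! U hU hh using h
  choose! a ha using hh
  let V : W → X.Opens := fun x => U x ⊓ W
  have hV : ∀ x : W, V x ≤ W := fun x => inf_le_right
  have hcov : W ≤ iSup V := fun x hx => by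
    rw [Opens.mem_iSup]
    exact ⟨⟨x, hx⟩, hU x hx, hx⟩
  have key : ∀ c : ∀ x : W, Γ(X, V x)ˣ, (∀ (x : W) (y : X) (hy : y ∈ V x) (x' : W) (hy' : y ∈ V x'),
      ug (c x) y hy = ug (c x') y hy') →
      ∃ b : Γ(X, W), ∀ x : W, X.presheaf.map (homOfLE (hV x)).op b = (c x : Γ(X, V x)) := by
    intro c hc
    obtain ⟨b, hb, -⟩ := X.sheaf.existsUnique_gluing' V W (fun x => homOfLE (hV x)) hcov
      (fun x => (c x : Γ(X, V x))) (by
        intro x x'
        refine TopCat.Presheaf.section_ext X.sheaf _ _ _ fun y hy => ?_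
        have e1 := TopCat.Presheaf.germ_res_apply X.presheaf (Opens.infLELeft (V x) (V x')) y hy
          (c x : Γ(X, V x))
        have e2 := TopCat.Presheaf.germ_res_apply X.presheaf (Opens.infLERight (V x) (V x')) y hy
          (c x' : Γ(X, V x'))
        refine e1.trans ((congrArg Units.val (hc x y hy.1 x' hy.2)).trans e2.symm))
    exact ⟨b, hb⟩
  obtain ⟨b, hb⟩ := key (fun x => ures inf_le_left (a x)) (fun x y hy x' hy' => by
    rw [ug_ures, ug_ures, ha x x.2, ha x' x'.2])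
  obtain ⟨b', hb'⟩ := key (fun x => ures inf_le_left (a x)⁻¹) (fun x y hy x' hy' => by
    rw [ug_ures, ug_ures, ug_inv, ug_inv, ha x x.2, ha x' x'.2])
  have hg : ∀ x (hx : x ∈ W), X.presheaf.germ W x hx b = (s x : X.presheaf.stalk x) := by
    intro x hx
    have hVx : x ∈ V ⟨x, hx⟩ := ⟨hU x hx, hx⟩
    have h1 := TopCat.Presheaf.germ_res_apply X.presheaf (homOfLE (hV ⟨x, hx⟩)) x hVx b
    refine h1.symm.trans ((congrArg _ (hb ⟨x, hx⟩)).trans ?_)
    refine (ug_val _ _ _).symm.trans (congrArg Units.val ?_)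
    exact (ug_ures _ _ _ _).trans (ha x hx _ _)
  have hg' : ∀ x (hx : x ∈ W), X.presheaf.germ W x hx b' = ((s x)⁻¹ : (X.presheaf.stalk x)ˣ) := by
    intro x hx
    have hVx : x ∈ V ⟨x, hx⟩ := ⟨hU x hx, hx⟩
    have h1 := TopCat.Presheaf.germ_res_apply X.presheaf (homOfLE (hV ⟨x, hx⟩)) x hVx b'
    refine h1.symm.trans ((congrArg _ (hb' ⟨x, hx⟩)).trans ?_)
    refine (ug_val _ _ _).symm.trans (congrArg Units.val ?_)
    refine (ug_ures _ _ _ _).trans ?_
    exact (ug_inv _ _ _).trans (congrArg _ (ha x hx _ _))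
  have hbb : b * b' = 1 := by
    refine TopCat.Presheaf.section_ext X.sheaf _ _ _ fun x hx => ?_
    have : X.presheaf.germ W x hx (b * b') = X.presheaf.germ W x hx 1 := by
      rw [map_mul, hg x hx, hg' x hx, map_one, Units.mul_inv]
    exact this
  refine ⟨⟨b, b', hbb, by rw [mul_comm, hbb]⟩, fun x hx => ?_⟩
  ext
  rw [ug_val]
  exact hg x hx

/-- pull-back of unit functions -/
def upb (f : Y ⟶ X) : SU X →* SU Y where
  toFun s := fun y => Units.map (f.stalkMap y).hom.toMonoidHom (s (f y))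
  map_one' := by ext y; simp
  map_mul' s s' := by ext y; simp

theorem upb_apply (f : Y ⟶ X) (s : SU X) (y : Y) :
    upb f s y = Units.map (f.stalkMap y).hom.toMonoidHom (s (f y)) := rfl

/-- pull-back of unit sections -/
def upbs (f : Y ⟶ X) (U : X.Opens) : Γ(X, U)ˣ →* Γ(Y, f ⁻¹ᵁ U)ˣ :=
  Units.map (f.app U).hom.toMonoidHom

theorem ug_upbs (f : Y ⟶ X) (U : X.Opens) (a : Γ(X, U)ˣ) (y : Y) (hy : y ∈ f ⁻¹ᵁ U) :
    ug (upbs f U a) y hy = Units.map (f.stalkMap y).hom.toMonoidHom (ug a (f y) hy) := by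
  ext
  have := Scheme.Hom.germ_stalkMap_apply f U y hy (a : Γ(X, U))
  exact this.symm

theorem OnU.upb (f : Y ⟶ X) {W : X.Opens} {s : SU X} (h : OnU W s) : OnU (f ⁻¹ᵁ W) (upb f s) := by
  intro y hy
  obtain ⟨U, hU, a, ha⟩ := h (f y) hy
  refine ⟨f ⁻¹ᵁ U, hU, upbs f U a, fun z hz => ?_⟩
  rw [ug_upbs, ha _ hz]
  rfl

theorem upb_comp (f : Z ⟶ Y) (g : Y ⟶ X) (s : SU X) : upb (f ≫ g) s = upb f (upb g s) := by
  ext z
  exact congr($(Scheme.Hom.stalkMap_comp f g z) (s (g (f z)) : X.presheaf.stalk (g (f z))))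

theorem upb_id (s : SU X) : upb (𝟙 X) s = s := by
  ext z
  exact congr($(Scheme.Hom.stalkMap_id (X := X) z) (s z : X.presheaf.stalk z))

theorem upb_congr {f g : Y ⟶ X} (h : f = g) (s : SU X) : upb f s = upb g s := by rw [h]

end Fermat.Agent.JC
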