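import Fermat.Agent.JC.Push
import Fermat.Agent.JC.Const
import Fermat.Prelude.Def_AlgebraicGeometry_RelativePicardFunctor

set_option autoImplicit false

/-! Block C (S25): separatedness and gluing for rigidified cocycles on `C ×ₖ T`, Zariski locally on
`T`. -/

noncomputable section

universe u

open CategoryTheory CategoryTheory.Limits AlgebraicGeometry TopologicalSpace Opposite
open NeronModelInfra AlgebraicGeometry.RelPicard

namespace Fermat.Agent.JC

section BC

variable {k : Type u} [CommRing k] {C T T' : Scheme.{u}} (c : C ⟶ Spec (CommRingCat.of k))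
  {t : T ⟶ Spec (CommRingCat.of k)} {t' : T' ⟶ Spec (CommRingCat.of k)}

theorem baseChangeSnd_fst (g : SchemeHomOver t' t) :
    baseChangeSnd c g ≫ pullback.fst c t = pullback.fst c t' := by
  unfold baseChangeSnd
  rw [pullback.lift_fst, Category.comp_id]

theorem baseChangeSnd_snd (g : SchemeHomOver t' t) :
    baseChangeSnd c g ≫ pullback.snd c t = pullback.snd c t' ≫ g.1 := by
  unfold baseChangeSnd
  rw [pullback.lift_snd]

theorem isPullback_baseChangeSnd (g : SchemeHomOver t' t) :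
    IsPullback (baseChangeSnd c g) (pullback.snd c t') (pullback.snd c t) g.1 := by
  refine IsPullback.of_right (h₁₂ := pullback.fst c t) (v₁₃ := c) (h₂₂ := t) ?_
    (baseChangeSnd_snd c g) (IsPullback.of_hasPullback c t)
  rw [baseChangeSnd_fst, g.2]
  exact IsPullback.of_hasPullback c t'

instance isOpenImmersion_baseChangeSnd (g : SchemeHomOver t' t) [IsOpenImmersion g.1] :
    IsOpenImmersion (baseChangeSnd c g) :=
  MorphismProperty.of_isPullback (isPullback_baseChangeSnd c g).flip ‹_›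

theorem opensRange_baseChangeSnd (g : SchemeHomOver t' t) [IsOpenImmersion g.1] :
    (baseChangeSnd c g).opensRange = pullback.snd c t ⁻¹ᵁ g.1.opensRange := by
  ext x
  have h := (isPullback_baseChangeSnd c g)
  constructor
  · rintro ⟨y, rfl⟩
    refine ⟨pullback.snd c t' y, ?_⟩
    have := congr($(h.w) y)
    exact this.symm
  · rintro ⟨y, hy⟩
    obtain ⟨z, h1, -⟩ := Scheme.exists_preimage_of_isPullback h x y hy.symm
    exact ⟨z, h1⟩

theorem rigSection_snd (ε : SchemeHomOver (𝟙 (Spec (CommRingCat.of k))) c)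
    (t : T ⟶ Spec (CommRingCat.of k)) :
    rigSection c t ε ≫ pullback.snd c t = 𝟙 T := by
  unfold rigSection
  rw [pullback.lift_snd]

end BC

section Z

variable {k : Type u} [Field k] [IsAlgClosed k] {C T : Scheme.{u}}
  (c : C ⟶ Spec (CommRingCat.of k)) [IsProper c] [IsIntegral C]
  (t : T ⟶ Spec (CommRingCat.of k)) (ε : SchemeHomOver (𝟙 (Spec (CommRingCat.of k))) c)

theorem surj_snd_app (W : T.Opens) : Function.Surjective ((pullback.snd c t).app W).hom :=
  (bijective_snd_app c t W).2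

theorem iSup_opensRange (𝒰 : Scheme.OpenCover.{u, u} T) :
    (⨆ i, (𝒰.f i).opensRange) = ⊤ := by
  rw [eq_top_iff]
  intro x _
  rw [Opens.mem_iSup]
  exact ⟨𝒰.idx x, 𝒰.covers x⟩

/-- separatedness on the level of cocycles -/
theorem dat_sep (𝒰 : Scheme.OpenCover.{u, u} T) {G G' : Dat (pullback c t)}
    (hG : G.IsC ⊤) (hG' : G'.IsC ⊤)
    (hr : (G.pb (rigSection c t ε)).Triv ⊤) (hr' : (G'.pb (rigSection c t ε)).Triv ⊤)
    (h : ∀ i, (G.pb (baseChangeSnd c ⟨𝒰.f i, rfl⟩)).Eqv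
      (G'.pb (baseChangeSnd c ⟨𝒰.f i, rfl⟩)) ⊤) : G.Eqv G' ⊤ := by
  have h1 := iSup_opensRange 𝒰
  have key := eqv_of_local (pullback.snd c t) (rigSection c t ε) (rigSection_snd c ε t)
    (surj_snd_app c t) (G := G) (G' := G') (fun i => (𝒰.f i).opensRange)
    (by rw [h1]; exact hG) (by rw [h1]; exact hG') (by rw [h1]; exact hr) (by rw [h1]; exact hr')
    (fun i => by
      have e := opensRange_baseChangeSnd c (t := t) ⟨𝒰.f i, rfl⟩
      refine Dat.Eqv.of_pb (baseChangeSnd c ⟨𝒰.f i, rfl⟩) (le_of_eq e.symm) ?_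
      exact (h i).mono le_top)
  rw [h1] at key
  exact key

/-- gluing on the level of cocycles -/
theorem dat_glue (𝒰 : Scheme.OpenCover.{u, u} T) (G : ∀ i, Dat (pullback c (𝒰.f i ≫ t)))
    (hG : ∀ i, (G i).IsC ⊤) (hr : ∀ i, ((G i).pb (rigSection c (𝒰.f i ≫ t) ε)).Triv ⊤)
    (h : ∀ i j, ((G i).pb (baseChangeSnd c (t' := pullback.fst (𝒰.f i) (𝒰.f j) ≫ 𝒰.f i ≫ t)
        ⟨pullback.fst (𝒰.f i) (𝒰.f j), rfl⟩)).Eqv
      ((G j).pb (baseChangeSnd c (t' := pullback.fst (𝒰.f i) (𝒰.f j) ≫ 𝒰.f i ≫ t)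
        ⟨pullback.snd (𝒰.f i) (𝒰.f j), by
          rw [← Category.assoc, ← Category.assoc, pullback.condition]⟩)) ⊤) :
    ∃ G' : Dat (pullback c t), G'.IsC ⊤ ∧ (G'.pb (rigSection c t ε)).Triv ⊤ ∧
      ∀ i, (G'.pb (baseChangeSnd c ⟨𝒰.f i, rfl⟩)).Eqv (G i) ⊤ := by
  have h1 := iSup_opensRange 𝒰
  let b : ∀ i, pullback c (𝒰.f i ≫ t) ⟶ pullback c t := fun i =>
    baseChangeSnd c (t := t) ⟨𝒰.f i, rfl⟩
  have hb : ∀ i, IsOpenImmersion (b i) := fun i =>
    isOpenImmersion_baseChangeSnd c (t := t) ⟨𝒰.f i, rfl⟩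
  have hbr : ∀ i, (b i).opensRange = pullback.snd c t ⁻¹ᵁ (𝒰.f i).opensRange := fun i =>
    opensRange_baseChangeSnd c (t := t) ⟨𝒰.f i, rfl⟩
  let G₁ : ∀ i, Dat (pullback c t) := fun i => (G i).push (b i)
  have hG₁ : ∀ i, (G₁ i).pb (b i) = G i := fun i => Dat.push_pb (b i) (G i)
  obtain ⟨G', k1, k2, k3⟩ := exists_glue (pullback.snd c t) (rigSection c t ε)
    (rigSection_snd c ε t) (surj_snd_app c t) (fun i => (𝒰.f i).opensRange) G₁
    (fun i => by
      rw [← hbr i]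
      exact (hG i).push (b i))
    (fun i => by
      refine Dat.Triv.of_pb (𝒰.f i) le_rfl ?_
      have e : 𝒰.f i ≫ rigSection c t ε = rigSection c (𝒰.f i ≫ t) ε ≫ b i :=
        (rigSection_baseChangeSnd c ε (⟨𝒰.f i, rfl⟩ : SchemeHomOver (𝒰.f i ≫ t) t)).symm
      rw [Dat.pb_pb, Dat.pb_congr e, ← Dat.pb_pb, hG₁]
      obtain ⟨r, h3⟩ := hr i
      exact ⟨r, ⟨fun l => (h3.on l).mono (inf_le_inf le_rfl le_top),
        fun l l' x _ => h3.eq l l' x trivial⟩⟩)
    (fun i j => by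
      let t₂ := pullback.fst (𝒰.f i) (𝒰.f j) ≫ 𝒰.f i ≫ t
      let q : SchemeHomOver t₂ t := ⟨pullback.fst (𝒰.f i) (𝒰.f j) ≫ 𝒰.f i, by
        rw [Category.assoc]⟩
      let q₁ : SchemeHomOver t₂ (𝒰.f i ≫ t) := ⟨pullback.fst (𝒰.f i) (𝒰.f j), rfl⟩
      let q₂ : SchemeHomOver t₂ (𝒰.f j ≫ t) := ⟨pullback.snd (𝒰.f i) (𝒰.f j), by
          show _ = pullback.fst (𝒰.f i) (𝒰.f j) ≫ 𝒰.f i ≫ t
          rw [← Category.assoc, ← Category.assoc, pullback.condition]⟩
      have hq : IsOpenImmersion q.1 := by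
        show IsOpenImmersion (pullback.fst (𝒰.f i) (𝒰.f j) ≫ 𝒰.f i)
        infer_instance
      have e1 : baseChangeSnd c q₁ ≫ b i = baseChangeSnd c q := by
        rw [baseChangeSnd_comp]
        rfl
      have e2 : baseChangeSnd c q₂ ≫ b j = baseChangeSnd c q := by
        rw [baseChangeSnd_comp]
        congr 1
        apply Subtype.ext
        exact pullback.condition.symm
      have hr2 : (baseChangeSnd c q).opensRange =
          pullback.snd c t ⁻¹ᵁ ((𝒰.f i).opensRange ⊓ (𝒰.f j).opensRange) := by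
        rw [opensRange_baseChangeSnd]
        congr 1
        exact Opens.ext (IsOpenImmersion.range_pullback_to_base_of_left _ _)
      refine Dat.Eqv.of_pb (baseChangeSnd c q) (le_of_eq hr2.symm) ?_
      have e3 : (G₁ i).pb (baseChangeSnd c q) = (G i).pb (baseChangeSnd c q₁) := by
        rw [← e1, ← Dat.pb_pb, hG₁]
      have e4 : (G₁ j).pb (baseChangeSnd c q) = (G j).pb (baseChangeSnd c q₂) := by
        rw [← e2, ← Dat.pb_pb, hG₁]
      rw [e3, e4]
      exact (h i j).mono le_top)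
  rw [h1] at k1 k2
  refine ⟨G', k1, k2, fun i => ?_⟩
  have h3 := (k3 i).pb (b i)
  rw [hG₁] at h3
  refine h3.mono ?_
  intro x _
  have : b i x ∈ (b i).opensRange := ⟨x, rfl⟩
  rw [hbr i] at this
  exact this

end Z

end Fermat.Agent.JC
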